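/-
S33lib / N / Datum  (helper3, architect of track B)  — Project LSp, geometry interface, part 1

The reduction data of the NODAL model (two components `X̄₁ ∪ X̄₂` crossing at `s` nodes), at the
level of places.  Everything here is a definition or a trivial lemma.

* `pushO r`      : push-forward of divisors along a PARTIAL map `r : ι → Option κ`;
* `DiscDatum`    : the LOCAL datum of ONE component: a Gauss datum `G` (valuation ring, reduction),
                   a partial place map `r` (defined on the residue discs of the smooth points of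
                   that component) and the local conservation law **(LC)**:
                   `Σ_{P ↦ Q̄} ord_P y = ord_Q̄ ȳ` for `y ∈ O`, `ȳ ≠ 0`, `Q̄` in the image of `r`.
                   The disc calculus of FF (`S19lib/C/Disc`, `Geom/Taylor`) is ported over this
                   structure (`S33lib/NC`);
* `NRedDatum`    : the GLOBAL datum: `LSb.NodalDatum` (function level: `V₁ V₂`, nodes) + the place map
                   `r : Place → Option (Pt₁ ⊕ Pt₂)` (`none` = the point lies in an annulus) + (LC) on
                   both components + **(RED)** `f ∈ L(E) ∩ O ⇒ (f̄₁, f̄₂) ∈ nodalSpace (r₁_* E) (r₂_* E)` for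
                   `E` supported on the smooth locus.  Produced by `S33lib/NRed` (helper6);
* `IAct`         : a group acting semilinearly on `F / L`, trivially on the residue field of `A`
                   ("inertia"); `IAct.R` (fixed elements of `A`), `FixF`, `FixP`, `FixD`;
* `DSym`, `NSym` : such a group acting trivially on the reduction(s) and preserving the place map, for
                   a `DiscDatum` resp. an `NRedDatum`; `NSym.S₁`, `NSym.S₂`, `NSym.HasFixedLifts`.
-/
import Mathlib
import Fermat.Agent.LSb.Core.Datum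
import Fermat.Agent.LSb.Core.NodalRR
import Fermat.Agent.S18lib.Setup.DatumFibre
import Fermat.Agent.S19lib.C.Eval

set_option autoImplicit false
set_option linter.unusedSectionVars false

noncomputable section

namespace Fermat.Agent.S33lib.N

open AlgebraicCurve Fermat.Agent.LSb Fermat.Agent.S18lib

/-! ### push-forward along a partial map -/

section Push

variable {ι κ : Type*}

/-- push-forward of divisors along a partial map (points sent to `none` are forgotten) -/
def pushO (r : ι → Option κ) : (ι →₀ ℤ) →+ (κ →₀ ℤ) :=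
  (Finsupp.comapDomain.addMonoidHom (Option.some_injective κ)).comp
    (Finsupp.mapDomain.addMonoidHom r)

theorem pushO_apply (r : ι → Option κ) (E : ι →₀ ℤ) (Q : κ) :
    pushO r E Q = Finsupp.mapDomain r E (some Q) := rfl

theorem pushO_single (r : ι → Option κ) (P : ι) (n : ℤ) (Q : κ) [DecidableEq (Option κ)] :
    pushO r (Finsupp.single P n) Q = if r P = some Q then n else 0 := by
  rw [pushO_apply, Finsupp.mapDomain_single, Finsupp.single_apply]

theorem pushO_single_of_eq (r : ι → Option κ) {P : ι} {Q : κ} (h : r P = some Q) (n : ℤ) :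
    pushO r (Finsupp.single P n) = Finsupp.single Q n := by
  classical
  ext Q'
  rw [pushO_single, h, Finsupp.single_apply]
  by_cases hQ : Q = Q'
  · subst hQ; simp
  · rw [if_neg hQ, if_neg (fun h' => hQ (Option.some_injective κ h'))]

theorem pushO_single_of_none (r : ι → Option κ) {P : ι} (h : r P = none) (n : ℤ) :
    pushO r (Finsupp.single P n) = 0 := by
  classical
  ext Q'
  rw [pushO_single, h, if_neg (by simp)]
  rfl

end Push

variable {L : Type*} [Field L] {A : ValuationSubring L}
variable {F : Type*} [Field F] [Algebra L F]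

local notation "k" => IsLocalRing.ResidueField A

/-! ### the local datum of one component -/

/-- **The local reduction datum of one component**: a Gauss datum, the partial place map onto the
smooth points of the component, and the local conservation law. -/
structure DiscDatum (A : ValuationSubring L) (F : Type*) [Field F] [Algebra L F]
    [HasPrincipalDivisors L F]
    (Fk : Type*) [Field Fk] [Algebra (IsLocalRing.ResidueField A) Fk] where
  /-- the Gauss valuation ring and the reduction map of this component -/
  G : GaussDatum A F Fk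
  /-- the partial place map: `r P = some Q̄` iff `P` lies in the residue disc of the smooth point
  `Q̄` of this component -/
  r : Place L F → Option (Place (IsLocalRing.ResidueField A) Fk)
  deg_r : ∀ P Q, r P = some Q → Q.deg = P.deg
  /-- **(LC)** local conservation: `Σ_{P ↦ Q̄} ord_P y = ord_Q̄ ȳ` -/
  cons : ∀ y : F, G.redF y ≠ 0 → ∀ (P₀ : Place L F) (Q : Place (IsLocalRing.ResidueField A) Fk),
    r P₀ = some Q → pushO r (divOf (K := L) y) Q = Q.ord (G.redF y)

namespace DiscDatum

variable [HasPrincipalDivisors L F]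
variable {Fk : Type*} [Field Fk] [Algebra (IsLocalRing.ResidueField A) Fk]

/-- the valuation ring -/
abbrev O (D : DiscDatum A F Fk) : ValuationSubring F := D.G.O

/-- the reduction -/
abbrev redF (D : DiscDatum A F Fk) (y : F) : Fk := D.G.redF y

/-- the good points: those with a nonempty residue disc -/
def Good (D : DiscDatum A F Fk) (Q : Place k Fk) : Prop := ∃ P, D.r P = some Q

/-- the residue disc of `Q` -/
def disc (D : DiscDatum A F Fk) (Q : Place k Fk) : Set (Place L F) := {P | D.r P = some Q}

theorem good_of_r_eq (D : DiscDatum A F Fk) {P : Place L F} {Q : Place k Fk} (h : D.r P = some Q) :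
    D.Good Q := ⟨P, h⟩

theorem pushO_divOf (D : DiscDatum A F Fk) {y : F} (hy : D.redF y ≠ 0) {Q : Place k Fk}
    (hQ : D.Good Q) : pushO D.r (divOf (K := L) y) Q = Q.ord (D.redF y) := by
  obtain ⟨P₀, hP₀⟩ := hQ
  exact D.cons y hy P₀ Q hP₀

end DiscDatum

/-! ### the global datum -/

section Global

variable {F₁ F₂ : Type*} [Field F₁] [Field F₂]
variable [Algebra (IsLocalRing.ResidueField A) F₁] [Algebra (IsLocalRing.ResidueField A) F₂]

/-- the points of the special fibre (of both components, nodes included) -/
abbrev Pt (A : ValuationSubring L) (F₁ F₂ : Type*) [Field F₁] [Field F₂]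
    [Algebra (IsLocalRing.ResidueField A) F₁] [Algebra (IsLocalRing.ResidueField A) F₂] : Type _ :=
  Place (IsLocalRing.ResidueField A) F₁ ⊕ Place (IsLocalRing.ResidueField A) F₂

/-- first component of a partial map to `Pt` -/
def fst? {α β γ : Type*} (r : α → Option (β ⊕ γ)) (a : α) : Option β :=
  (r a).bind Sum.getLeft?

/-- second component of a partial map to `Pt` -/
def snd? {α β γ : Type*} (r : α → Option (β ⊕ γ)) (a : α) : Option γ :=
  (r a).bind Sum.getRight?

theorem fst?_eq_some {α β γ : Type*} {r : α → Option (β ⊕ γ)} {a : α} {b : β} :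
    fst? r a = some b ↔ r a = some (Sum.inl b) := by
  unfold fst?
  cases h : r a with
  | none => simp
  | some x => cases x <;> simp

theorem snd?_eq_some {α β γ : Type*} {r : α → Option (β ⊕ γ)} {a : α} {c : γ} :
    snd? r a = some c ↔ r a = some (Sum.inr c) := by
  unfold snd?
  cases h : r a with
  | none => simp
  | some x => cases x <;> simp

/-- **The global reduction datum of the nodal model.** -/
structure NRedDatum (A : ValuationSubring L) (F : Type*) [Field F] [Algebra L F]
    [HasPrincipalDivisors L F]
    (F₁ F₂ : Type*) [Field F₁] [Field F₂]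
    [Algebra (IsLocalRing.ResidueField A) F₁] [Algebra (IsLocalRing.ResidueField A) F₂] where
  /-- the function-level datum of LSb: `V₁ V₂`, the nodes `x₁ x₂` (and the chart divisors) -/
  nod : NodalDatum A F F₁ F₂
  /-- the place map: `some (inl Q̄)` / `some (inr Q̄)` = the point reduces to the smooth point `Q̄` of
  the first / second component; `none` = the point lies in an annulus -/
  r : Place L F → Option (Pt A F₁ F₂)
  /-- the image avoids the nodes -/
  r_ne_x₁ : ∀ P Q, r P = some (Sum.inl Q) → ∀ c, Q ≠ nod.x₁ c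
  r_ne_x₂ : ∀ P Q, r P = some (Sum.inr Q) → ∀ c, Q ≠ nod.x₂ c
  /-- every non-node point is the reduction of a place -/
  r_surj₁ : ∀ Q : Place (IsLocalRing.ResidueField A) F₁, (∀ c, Q ≠ nod.x₁ c) →
    ∃ P, r P = some (Sum.inl Q)
  r_surj₂ : ∀ Q : Place (IsLocalRing.ResidueField A) F₂, (∀ c, Q ≠ nod.x₂ c) →
    ∃ P, r P = some (Sum.inr Q)
  deg_r₁ : ∀ P Q, r P = some (Sum.inl Q) → Q.deg = P.deg
  deg_r₂ : ∀ P Q, r P = some (Sum.inr Q) → Q.deg = P.deg
  /-- **(LC)** on the first component (NO hypothesis with respect to `V₂`) -/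
  cons₁ : ∀ y : F, nod.V₁.redF y ≠ 0 → ∀ (P₀ : Place L F) (Q : Place (IsLocalRing.ResidueField A) F₁),
    r P₀ = some (Sum.inl Q) → pushO (fst? r) (divOf (K := L) y) Q = Q.ord (nod.V₁.redF y)
  /-- **(LC)** on the second component -/
  cons₂ : ∀ y : F, nod.V₂.redF y ≠ 0 → ∀ (P₀ : Place L F) (Q : Place (IsLocalRing.ResidueField A) F₂),
    r P₀ = some (Sum.inr Q) → pushO (snd? r) (divOf (K := L) y) Q = Q.ord (nod.V₂.redF y)
  /-- **(RED)** the reduction of `L(E) ∩ O`, `E` supported on the smooth locus, lies in the nodal
  Riemann–Roch space of the push-forward -/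
  red_mem : ∀ E : Divisor L F, (∀ P, E P ≠ 0 → r P ≠ none) →
    ∀ f ∈ riemannRochSpace E, f ∈ nod.V₁.O → f ∈ nod.V₂.O →
      nod.redF f ∈ Core.nodalSpace nod.x₁ nod.x₂ 1 (pushO (fst? r) E) (pushO (snd? r) E)

namespace NRedDatum

variable [HasPrincipalDivisors L F] (D : NRedDatum A F F₁ F₂)

/-- the local datum of the first component -/
def D₁ : DiscDatum A F F₁ where
  G := D.nod.V₁
  r := fst? D.r
  deg_r := fun P Q h => D.deg_r₁ P Q (fst?_eq_some.1 h)
  cons := fun y hy P₀ Q h => D.cons₁ y hy P₀ Q (fst?_eq_some.1 h)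

/-- the local datum of the second component -/
def D₂ : DiscDatum A F F₂ where
  G := D.nod.V₂
  r := snd? D.r
  deg_r := fun P Q h => D.deg_r₂ P Q (snd?_eq_some.1 h)
  cons := fun y hy P₀ Q h => D.cons₂ y hy P₀ Q (snd?_eq_some.1 h)

/-- push-forward to the first component -/
abbrev push₁ : Divisor L F →+ Divisor k F₁ := pushO (fst? D.r)

/-- push-forward to the second component -/
abbrev push₂ : Divisor L F →+ Divisor k F₂ := pushO (snd? D.r)

/-- a divisor supported on the smooth locus -/
def SmoothSupp (E : Divisor L F) : Prop := ∀ P, E P ≠ 0 → D.r P ≠ none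

/-- the sup-norm ball -/
abbrev O : Subring F := D.nod.O

/-- the nodal Riemann–Roch space of a pair of divisors on the two components -/
abbrev nodal (E₁ : Divisor k F₁) (E₂ : Divisor k F₂) : Submodule k (F₁ × F₂) :=
  Core.nodalSpace D.nod.x₁ D.nod.x₂ 1 E₁ E₂

/-- the nodal `ℓ` -/
def ell (E₁ : Divisor k F₁) (E₂ : Divisor k F₂) : ℕ := Module.finrank k (D.nodal E₁ E₂)

end NRedDatum

end Global

/-! ### inertia-type symmetries -/

section Sym

variable {G : Type*} [Group G]

/-- a group acting semilinearly on `F / L`, preserving `A` and acting TRIVIALLY on its residue field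
(an "inertia" action) -/
structure IAct (A : ValuationSubring L) (F : Type*) [Field F] [Algebra L F] (G : Type*) [Group G] where
  /-- the action -/
  ρ : G →* SemilinearAut L F
  mem_A : ∀ (g : G) (a : L), a ∈ A → SemilinearAut.baseAut (ρ g) a ∈ A
  residue_base : ∀ (g : G) (a : A),
    IsLocalRing.residue A ⟨SemilinearAut.baseAut (ρ g) (a : L), mem_A g a a.2⟩ = IsLocalRing.residue A a

namespace IAct

variable (S : IAct A F G)

/-- the action on the constants -/
def hat (g : G) (a : L) : L := SemilinearAut.baseAut (S.ρ g) a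

/-- the fixed elements of `A` -/
def R : Subring L where
  carrier := {a | a ∈ A ∧ ∀ g : G, SemilinearAut.baseAut (S.ρ g) a = a}
  mul_mem' := fun {a b} ha hb => ⟨A.mul_mem _ _ ha.1 hb.1, fun g => by
    rw [map_mul, ha.2 g, hb.2 g]⟩
  one_mem' := ⟨A.one_mem, fun g => map_one _⟩
  add_mem' := fun {a b} ha hb => ⟨A.add_mem _ _ ha.1 hb.1, fun g => by
    rw [map_add, ha.2 g, hb.2 g]⟩
  zero_mem' := ⟨A.zero_mem, fun g => map_zero _⟩
  neg_mem' := fun {a} ha => ⟨A.neg_mem _ ha.1, fun g => by rw [map_neg, ha.2 g]⟩

theorem mem_R {a : L} : a ∈ S.R ↔ a ∈ A ∧ ∀ g : G, SemilinearAut.baseAut (S.ρ g) a = a := Iff.rfl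

theorem R_le : ∀ a ∈ S.R, a ∈ A := fun _ ha => ha.1

/-- fixed functions -/
def FixF (f : F) : Prop := ∀ g : G, S.ρ g • f = f

/-- fixed places -/
def FixP (P : Place L F) : Prop := ∀ g : G, S.ρ g • P = P

/-- stable divisors -/
def FixD (E : Divisor L F) : Prop := ∀ g : G, S.ρ g • E = E

end IAct

variable [HasPrincipalDivisors L F]

/-- inertia-type symmetries of the local datum of one component -/
structure DSym {Fk : Type*} [Field Fk] [Algebra (IsLocalRing.ResidueField A) Fk]
    (D : DiscDatum A F Fk) (G : Type*) [Group G] extends IAct A F G where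
  mem_O : ∀ (g : G) (f : F), f ∈ D.O → ρ g • f ∈ D.O
  redF_smul : ∀ (g : G) (f : F), f ∈ D.O → D.redF (ρ g • f) = D.redF f
  r_smul : ∀ (g : G) (P : Place L F), D.r (ρ g • P) = D.r P

variable {F₁ F₂ : Type*} [Field F₁] [Field F₂]
variable [Algebra (IsLocalRing.ResidueField A) F₁] [Algebra (IsLocalRing.ResidueField A) F₂]

/-- inertia-type symmetries of the nodal datum -/
structure NSym (D : NRedDatum A F F₁ F₂) (G : Type*) [Group G] extends IAct A F G where
  mem_O₁ : ∀ (g : G) (f : F), f ∈ D.nod.V₁.O → ρ g • f ∈ D.nod.V₁.O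
  mem_O₂ : ∀ (g : G) (f : F), f ∈ D.nod.V₂.O → ρ g • f ∈ D.nod.V₂.O
  redF₁_smul : ∀ (g : G) (f : F), f ∈ D.nod.V₁.O → D.nod.V₁.redF (ρ g • f) = D.nod.V₁.redF f
  redF₂_smul : ∀ (g : G) (f : F), f ∈ D.nod.V₂.O → D.nod.V₂.redF (ρ g • f) = D.nod.V₂.redF f
  r_smul : ∀ (g : G) (P : Place L F), D.r (ρ g • P) = D.r P

namespace NSym

variable {D : NRedDatum A F F₁ F₂} (S : NSym D G)

/-- the symmetries of the first component -/
def S₁ : DSym D.D₁ G where
  toIAct := S.toIAct
  mem_O := S.mem_O₁
  redF_smul := S.redF₁_smul
  r_smul := fun g P => by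
    show fst? D.r (S.ρ g • P) = fst? D.r P
    unfold fst?
    rw [S.r_smul]

/-- the symmetries of the second component -/
def S₂ : DSym D.D₂ G where
  toIAct := S.toIAct
  mem_O := S.mem_O₂
  redF_smul := S.redF₂_smul
  r_smul := fun g P => by
    show snd? D.r (S.ρ g • P) = snd? D.r P
    unfold snd?
    rw [S.r_smul]

/-- **the lifting property** of stable Riemann–Roch spaces: every element of `L(E) ∩ O` has a FIXED
element of `L(E) ∩ O` with the same two reductions (in the modular instance: Speiser + the
`K`-rational sup-norm frames of `S36lib/Desc2`, `exists_fixed_liftS`) -/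
def HasFixedLifts : Prop :=
  ∀ E : Divisor L F, S.FixD E → ∀ f ∈ riemannRochSpace E, f ∈ D.nod.V₁.O → f ∈ D.nod.V₂.O →
    ∃ f' ∈ riemannRochSpace E, f' ∈ D.nod.V₁.O ∧ f' ∈ D.nod.V₂.O ∧ S.FixF f' ∧
      D.nod.V₁.redF f' = D.nod.V₁.redF f ∧ D.nod.V₂.redF f' = D.nod.V₂.redF f

end NSym

end Sym

end Fermat.Agent.S33lib.N

end
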