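/-
S33lib / N / Family  (helper3, architect of track B)  — Project LSp, geometry interface, part 3

Port of `S19lib/Geom/Family` + the structure of `S19lib/B/Tri` to the nodal model.

* `NFam D S g` : an *admissible chart family*: `g` fixed charts over `g` distinct smooth points
  `Qb i : Pt` of the special fibre whose sum is a non-special residue divisor (`D.ellR = 1`, i.e.
  the nodal Riemann–Roch space consists of the constants);
* `NFam.Dv u`, `NFam.E`, `NFam.Θ u = [Dv u - E] ∈ Pic⁰` for `u ∈ 𝔪_A^g`; `exists_eq_Dv`, `Dv_injOn`;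
* `NKred D` : the kernel of reduction on `Pic⁰` (classes of degree-zero divisors supported on the
  smooth locus with push-forward `0`);
* `NSolve a b c ϖ` : an analytic solution of the trilinear relation;
* `NTri a b c` : configurations (the divisor `B`, the section `s₀`, the fixed orthonormal basis of
  `L(B)`, the three one-dimensionality facts on the special fibre);
* the statements delivered by the other blocks: `NExistsFamStmt`, `NExistsTriStmt`, `NKerStmt`.
-/
import Fermat.Agent.S33lib.N.Chart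
import Fermat.Agent.S19lib.B.Ker

set_option autoImplicit false
set_option linter.unusedSectionVars false

noncomputable section

namespace Fermat.Agent.S33lib.N

open AlgebraicCurve Fermat.Agent.LSb Fermat.Agent.S18lib Fermat.Agent.S19lib.C
open Fermat.Agent.S19lib (AnalyticOn AnalyticMap PolyDisc)

variable {L : Type*} [Field L] {A : ValuationSubring L}
variable {F : Type*} [Field F] [Algebra L F]
variable {F₁ F₂ : Type*} [Field F₁] [Field F₂]
variable [Algebra (IsLocalRing.ResidueField A) F₁] [Algebra (IsLocalRing.ResidueField A) F₂]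
variable [HasPrincipalDivisors L F]
variable [HasPrincipalDivisors (IsLocalRing.ResidueField A) F₁]
  [HasPrincipalDivisors (IsLocalRing.ResidueField A) F₂]

local notation "k" => IsLocalRing.ResidueField A

/-! ### the kernel of reduction -/

theorem NRedDatum.smoothSupp_zero (D : NRedDatum A F F₁ F₂) : D.SmoothSupp 0 :=
  fun P h => absurd rfl h

theorem NRedDatum.SmoothSupp.add {D : NRedDatum A F F₁ F₂} {E E' : Divisor L F}
    (h : D.SmoothSupp E) (h' : D.SmoothSupp E') : D.SmoothSupp (E + E') := by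
  intro P hP
  by_cases h0 : E P = 0
  · refine h' P fun h1 => hP ?_
    rw [Finsupp.add_apply, h0, h1, add_zero]
  · exact h P h0

theorem NRedDatum.SmoothSupp.neg {D : NRedDatum A F F₁ F₂} {E : Divisor L F}
    (h : D.SmoothSupp E) : D.SmoothSupp (-E) := by
  intro P hP
  refine h P fun h0 => hP ?_
  rw [Finsupp.neg_apply, h0, neg_zero]

theorem NRedDatum.SmoothSupp.sub {D : NRedDatum A F F₁ F₂} {E E' : Divisor L F}
    (h : D.SmoothSupp E) (h' : D.SmoothSupp E') : D.SmoothSupp (E - E') := by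
  rw [sub_eq_add_neg]
  exact h.add h'.neg

theorem NRedDatum.smoothSupp_single {D : NRedDatum A F F₁ F₂} {P : Place L F} {q : Pt A F₁ F₂}
    (h : D.r P = some q) (n : ℤ) : D.SmoothSupp (Finsupp.single P n) := by
  classical
  intro P' hP'
  rw [Finsupp.single_apply] at hP'
  split_ifs at hP' with hPP'
  · rw [← hPP', h]; exact Option.some_ne_none q
  · exact absurd rfl hP'

theorem NRedDatum.smoothSupp_sum {D : NRedDatum A F F₁ F₂} {ι : Type*} (s : Finset ι)
    (E : ι → Divisor L F) (h : ∀ i ∈ s, D.SmoothSupp (E i)) : D.SmoothSupp (∑ i ∈ s, E i) := by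
  classical
  induction s using Finset.induction_on with
  | empty => rw [Finset.sum_empty]; exact D.smoothSupp_zero
  | insert i s hi ih =>
    rw [Finset.sum_insert hi]
    exact (h i (Finset.mem_insert_self i s)).add
      (ih fun j hj => h j (Finset.mem_insert_of_mem hj))

/-- the kernel of reduction on `Pic⁰`: classes of degree-zero divisors supported on the smooth locus
whose push-forward to the special fibre vanishes -/
def NKred (D : NRedDatum A F F₁ F₂) : AddSubgroup (Pic0 L F) where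
  carrier := {z | ∃ E : Divisor.degZero (K := L) (F := F), Pic0.mk E = z ∧
    D.SmoothSupp (E : Divisor L F) ∧ D.push (E : Divisor L F) = 0}
  zero_mem' := ⟨0, rfl, by
    rw [ZeroMemClass.coe_zero]; exact ⟨D.smoothSupp_zero, map_zero _⟩⟩
  add_mem' := by
    rintro _ _ ⟨E, rfl, hE, hE0⟩ ⟨E', rfl, hE', hE'0⟩
    refine ⟨E + E', rfl, ?_, ?_⟩
    · rw [AddSubgroup.coe_add]; exact hE.add hE'
    · rw [AddSubgroup.coe_add, map_add, hE0, hE'0, add_zero]
  neg_mem' := by
    rintro _ ⟨E, rfl, hE, hE0⟩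
    refine ⟨-E, rfl, ?_, ?_⟩
    · rw [AddSubgroup.coe_neg]; exact hE.neg
    · rw [AddSubgroup.coe_neg, map_neg, hE0, neg_zero]

/-! ### chart families -/

variable {G : Type*} [Group G]

/-- an admissible chart family -/
structure NFam (D : NRedDatum A F F₁ F₂) (S : NSym D G) (g : ℕ) where
  /-- the centres on the special fibre -/
  Qb : Fin g → Pt A F₁ F₂
  /-- the charts -/
  ch : ∀ i, NChart D (Qb i)
  inj : Function.Injective Qb
  fixT : ∀ i, S.FixF (ch i).t
  fixP : ∀ i, S.FixP (ch i).P0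
  nonspecial : D.ellR (∑ i, ptR (Qb i)) = 1
  deg_one : ∀ P : Place L F, P.deg = 1

namespace NFam

variable {D : NRedDatum A F F₁ F₂} {S : NSym D G} {g : ℕ} (a : NFam D S g)

/-- the reduced base divisor `Ē = ∑ i, Q̄ i` -/
def Eb : RDiv A F₁ F₂ := ∑ i, ptR (a.Qb i)

/-- the effective divisor with coordinates `u` -/
def Dv (u : Fin g → L) : Divisor L F := ∑ i, Finsupp.single ((a.ch i).pt (u i)) (1 : ℤ)

/-- the base divisor -/
def E : Divisor L F := ∑ i, Finsupp.single (a.ch i).P0 (1 : ℤ)

theorem Dv_zero : a.Dv 0 = a.E := by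
  rw [Dv, E]
  exact Finset.sum_congr rfl fun i _ => by rw [Pi.zero_apply, (a.ch i).pt_zero]

theorem degree_Dv (u : Fin g → L) : Divisor.degree (a.Dv u) = g := by
  rw [Dv, map_sum]
  simp [Divisor.degree_single, a.deg_one]

theorem degree_E : Divisor.degree a.E = g := by
  rw [← a.Dv_zero, a.degree_Dv]

theorem Dv_nonneg (u : Fin g → L) : 0 ≤ a.Dv u :=
  Finset.sum_nonneg fun i _ => Finsupp.single_nonneg.2 zero_le_one

theorem E_nonneg : 0 ≤ a.E :=
  Finset.sum_nonneg fun i _ => Finsupp.single_nonneg.2 zero_le_one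

theorem push_Dv (u : Fin g → L) : D.push (a.Dv u) = a.Eb := by
  rw [Dv, map_sum, Eb]
  exact Finset.sum_congr rfl fun i _ => D.push_single_of_eq ((a.ch i).r_pt _) 1

theorem push_E : D.push a.E = a.Eb := by
  rw [← a.Dv_zero, a.push_Dv]

theorem smoothSupp_Dv (u : Fin g → L) : D.SmoothSupp (a.Dv u) :=
  NRedDatum.smoothSupp_sum _ _ fun i _ => NRedDatum.smoothSupp_single ((a.ch i).r_pt _) 1

theorem smoothSupp_E : D.SmoothSupp a.E := by
  rw [← a.Dv_zero]; exact a.smoothSupp_Dv 0

theorem ellR_push_Dv (u : Fin g → L) : D.ellR (D.push (a.Dv u)) = 1 := by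
  rw [a.push_Dv]; exact a.nonspecial

theorem ellR_push_E : D.ellR (D.push a.E) = 1 := by
  rw [a.push_E]; exact a.nonspecial

theorem sub_mem_degZero (u : Fin g → L) :
    a.Dv u - a.E ∈ Divisor.degZero (K := L) (F := F) := by
  rw [Divisor.mem_degZero, map_sub, a.degree_Dv, a.degree_E, sub_self]

/-- the point of `Pic⁰` with coordinates `u` -/
def Θ (u : Fin g → L) : Pic0 L F := Pic0.mk ⟨a.Dv u - a.E, a.sub_mem_degZero u⟩

theorem Θ_zero : a.Θ 0 = 0 := by
  have h : (⟨a.Dv 0 - a.E, a.sub_mem_degZero 0⟩ : Divisor.degZero (K := L) (F := F)) = 0 :=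
    Subtype.ext (by
      show a.Dv 0 - a.E = 0
      rw [a.Dv_zero, sub_self])
  rw [Θ, h]
  rfl

theorem Θ_mem_NKred (u : Fin g → L) : a.Θ u ∈ NKred D :=
  ⟨⟨a.Dv u - a.E, a.sub_mem_degZero u⟩, rfl, (a.smoothSupp_Dv u).sub a.smoothSupp_E, by
    show D.push (a.Dv u - a.E) = 0
    rw [map_sub, a.push_Dv, a.push_E, sub_self]⟩

/-- `D_a(u)` vanishes outside the discs of `a` -/
theorem Dv_apply_eq_zero (u : Fin g → L) {P : Place L F} (h : ∀ i, D.r P ≠ some (a.Qb i)) :
    a.Dv u P = 0 := by
  classical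
  rw [Dv, Finsupp.finsetSum_apply]
  refine Finset.sum_eq_zero fun i _ => ?_
  rw [Finsupp.single_apply, if_neg]
  intro hP
  exact h i (by rw [← hP, (a.ch i).r_pt])

/-- the base divisor vanishes outside the discs of `a` -/
theorem E_apply_eq_zero {P : Place L F} (h : ∀ i, D.r P ≠ some (a.Qb i)) : a.E P = 0 := by
  rw [← a.Dv_zero]; exact a.Dv_apply_eq_zero 0 h

/-- `D_a(u)` on the `i`-th disc of `a` -/
theorem Dv_apply_of_r_eq (u : Fin g → L) {P : Place L F} {i : Fin g}
    (hP : D.r P = some (a.Qb i)) [Decidable (P = (a.ch i).pt (u i))] :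
    a.Dv u P = if P = (a.ch i).pt (u i) then 1 else 0 := by
  classical
  rw [Dv, Finsupp.finsetSum_apply, Finset.sum_eq_single i]
  · rw [Finsupp.single_apply]
    by_cases h : P = (a.ch i).pt (u i)
    · rw [if_pos h, if_pos h.symm]
    · rw [if_neg h, if_neg fun h' => h h'.symm]
  · intro j _ hji
    rw [Finsupp.single_apply, if_neg]
    intro hj
    refine hji (a.inj (Option.some_injective _ ?_))
    rw [← hP, ← hj, (a.ch j).r_pt]
  · intro h; exact absurd (Finset.mem_univ i) h

/-- an effective divisor with the same total reduction as the base divisor is `Dv u` -/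
theorem exists_eq_Dv {E' : Divisor L F} (hE' : 0 ≤ E') (hS : D.SmoothSupp E')
    (h : D.push E' = a.Eb) : ∃ u ∈ PolyDisc A (Fin g), a.Dv u = E' := by
  classical
  -- the total push-forward, including the annuli
  have h1 : Finsupp.mapDomain D.r E' = ∑ i, Finsupp.single (some (a.Qb i)) (1 : ℤ) := by
    ext o
    rcases o with _ | q
    · -- nothing in the annuli
      have h0 : Finsupp.mapDomain D.r E' none = 0 := by
        rw [Finsupp.mapDomain, Finsupp.sum_apply, Finsupp.sum]
        refine Finset.sum_eq_zero fun P hP => ?_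
        rw [Finsupp.single_apply, if_neg (hS P (Finsupp.mem_support_iff.1 hP))]
      rw [h0, Finsupp.finsetSum_apply]
      exact (Finset.sum_eq_zero fun i _ => by
        rw [Finsupp.single_apply, if_neg (Option.some_ne_none _)]).symm
    · have h2 := DFunLike.congr_fun h q
      rw [D.push_apply, Eb, Finsupp.finsetSum_apply] at h2
      rw [h2, Finsupp.finsetSum_apply]
      refine Finset.sum_congr rfl fun i _ => ?_
      rw [Finsupp.single_apply, Finsupp.single_apply]
      simp only [Option.some.injEq]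
  obtain ⟨P, hP, hE'P⟩ := Fermat.Agent.S19lib.B.exists_points_of_mapDomain_eq_sum_pt D.r hE'
    (fun i => some (a.Qb i)) (fun i j hij => a.inj (Option.some_injective _ hij)) h1
  refine ⟨fun i => ev (P i) (a.ch i).t, fun i => (a.ch i).valuation_ev_lt_one (hP i), ?_⟩
  rw [hE'P, Dv]
  exact Finset.sum_congr rfl fun i _ => by rw [(a.ch i).pt_ev (hP i)]

/-- `Dv` is injective on the polydisc -/
theorem Dv_injOn {u u' : Fin g → L} (hu : u ∈ PolyDisc A (Fin g)) (hu' : u' ∈ PolyDisc A (Fin g))
    (h : a.Dv u = a.Dv u') : u = u' := by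
  have h1 := Fermat.Agent.S19lib.B.eq_of_sum_single_eq D.r (P := fun i => (a.ch i).pt (u i))
    (P' := fun i => (a.ch i).pt (u' i)) (Q := fun i => some (a.Qb i))
    (fun i j hij => a.inj (Option.some_injective _ hij)) (fun i => (a.ch i).r_pt _)
    (fun i => (a.ch i).r_pt _) h
  funext i
  exact (a.ch i).pt_injOn (hu i) (hu' i) (congrFun h1 i)

/-- two families are disjoint if their discs are -/
def Disjoint (a b : NFam D S g) : Prop := ∀ i j, a.Qb i ≠ b.Qb j

theorem Disjoint.symm' {a b : NFam D S g} (h : a.Disjoint b) : b.Disjoint a :=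
  fun i j hij => h j i hij.symm

/-- the family avoids a finite set of points of the special fibre -/
def Avoids (a : NFam D S g) (T : Finset (Pt A F₁ F₂)) : Prop := ∀ i, a.Qb i ∉ T

end NFam

/-! ### analytic solutions of the trilinear relation -/

/-- an analytic solution `w = τ (u, v)` of `Θ_a u + Θ_b v + Θ_c w = 0` -/
structure NSolve {D : NRedDatum A F F₁ F₂} {S : NSym D G} {g : ℕ} (a b c : NFam D S g) (ϖ : L) where
  /-- the solution map -/
  τ : (Fin g ⊕ Fin g → L) → Fin g → L
  mem : ∀ w ∈ PolyDisc A (Fin g ⊕ Fin g), τ w ∈ PolyDisc A (Fin g)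
  spec : ∀ w ∈ PolyDisc A (Fin g ⊕ Fin g),
    a.Θ (fun i => w (Sum.inl i)) + b.Θ (fun i => w (Sum.inr i)) + c.Θ (τ w) = 0
  an : AnalyticMap A S.R ϖ τ

/-- **NB**: admissible families exist away from any finite set -/
def NExistsFamStmt (D : NRedDatum A F F₁ F₂) (S : NSym D G) (g : ℕ) : Prop :=
  ∀ T : Finset (Pt A F₁ F₂), ∃ a : NFam D S g, a.Avoids T

/-- **NB + ND**: two disjoint admissible families are completed by a third one (away from any
finite set) to a configuration whose trilinear relation is analytically solvable in each of the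
three variables. -/
def NExistsTriStmt (D : NRedDatum A F F₁ F₂) (S : NSym D G) (g : ℕ) (ϖ : L) : Prop :=
  ∀ (a b : NFam D S g), a.Disjoint b → ∀ T : Finset (Pt A F₁ F₂),
    ∃ c : NFam D S g, a.Disjoint c ∧ b.Disjoint c ∧ c.Avoids T ∧
      Nonempty (NSolve a b c ϖ) ∧ Nonempty (NSolve b c a ϖ) ∧ Nonempty (NSolve c a b ϖ)

/-- **NB / RedRR**: `Θ_a` is a bijection from the polydisc onto the kernel of reduction -/
def NKerStmt (D : NRedDatum A F F₁ F₂) (S : NSym D G) (g : ℕ) : Prop :=
  ∀ a : NFam D S g,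
    (∀ z ∈ NKred D, ∃ u ∈ PolyDisc A (Fin g), a.Θ u = z) ∧
    (∀ u ∈ PolyDisc A (Fin g), ∀ u' ∈ PolyDisc A (Fin g), a.Θ u = a.Θ u' → u = u')

/-! ### configurations -/

/-- **configurations** (port of `S19lib.B.TriData`): a stable divisor `B` of degree `3g` supported
on the smooth locus and trivial on the `3g` discs, with `E_a + E_b + E_c - B = div s₀` (`s₀` fixed, a
unit for both Gauss norms), a fixed sup-norm orthonormal basis `e₀ … e_{2g}` of `L(B)` reducing to a
basis of the nodal space of `r_* B`, and the three one-dimensionality facts on the special fibre. -/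
structure NTri {D : NRedDatum A F F₁ F₂} {S : NSym D G} {g : ℕ} (a b c : NFam D S g) where
  /-- the divisor `B = n Y - C` -/
  Bd : Divisor L F
  B_fix : S.FixD Bd
  B_smooth : D.SmoothSupp Bd
  B_disc_a : ∀ (P : Place L F) (i : Fin g), D.r P = some (a.Qb i) → Bd P = 0
  B_disc_b : ∀ (P : Place L F) (i : Fin g), D.r P = some (b.Qb i) → Bd P = 0
  B_disc_c : ∀ (P : Place L F) (i : Fin g), D.r P = some (c.Qb i) → Bd P = 0
  deg_B : Divisor.degree Bd = 3 * g
  /-- the section with divisor `E_a + E_b + E_c - B` -/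
  s0 : F
  s0_mem₁ : s0 ∈ D.nod.V₁.O
  s0_mem₂ : s0 ∈ D.nod.V₂.O
  s0_fix : S.FixF s0
  red_s0_ne₁ : D.nod.V₁.redF s0 ≠ 0
  red_s0_ne₂ : D.nod.V₂.redF s0 ≠ 0
  ord_s0 : ∀ P : Place L F, P.ord s0 + Bd P = (a.E + b.E + c.E) P
  /-- the fixed orthonormal basis of `L(B)` -/
  e : Fin (2 * g + 1) → F
  e_mem : ∀ j, e j ∈ riemannRochSpace Bd
  e_orth : D.nod.IsOrthonormal e
  e_fix : ∀ j, S.FixF (e j)
  e_span : Submodule.span L (Set.range e) = riemannRochSpace Bd
  eb_span : Submodule.span (IsLocalRing.ResidueField A) (Set.range fun j => D.nod.redF (e j)) =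
    D.RR (D.push Bd)
  rr_ab : D.RR (D.push Bd - a.Eb - b.Eb) =
    Submodule.span (IsLocalRing.ResidueField A) {D.nod.redF s0}
  rr_bc : D.RR (D.push Bd - b.Eb - c.Eb) =
    Submodule.span (IsLocalRing.ResidueField A) {D.nod.redF s0}
  rr_ca : D.RR (D.push Bd - c.Eb - a.Eb) =
    Submodule.span (IsLocalRing.ResidueField A) {D.nod.redF s0}

namespace NTri

variable {D : NRedDatum A F F₁ F₂} {S : NSym D G} {g : ℕ} {a b c : NFam D S g}

/-- cyclic rotation of a configuration -/
def rotate (T : NTri a b c) : NTri b c a where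
  Bd := T.Bd
  B_fix := T.B_fix
  B_smooth := T.B_smooth
  B_disc_a := T.B_disc_b
  B_disc_b := T.B_disc_c
  B_disc_c := T.B_disc_a
  deg_B := T.deg_B
  s0 := T.s0
  s0_mem₁ := T.s0_mem₁
  s0_mem₂ := T.s0_mem₂
  s0_fix := T.s0_fix
  red_s0_ne₁ := T.red_s0_ne₁
  red_s0_ne₂ := T.red_s0_ne₂
  ord_s0 := fun P => by
    rw [T.ord_s0 P]
    simp only [Finsupp.add_apply]
    ring
  e := T.e
  e_mem := T.e_mem
  e_orth := T.e_orth
  e_fix := T.e_fix
  e_span := T.e_span
  eb_span := T.eb_span
  rr_ab := T.rr_bc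
  rr_bc := T.rr_ca
  rr_ca := T.rr_ab

theorem s0_ne (T : NTri a b c) : T.s0 ≠ 0 := by
  intro h
  exact T.red_s0_ne₁ (by rw [h]; exact D.nod.V₁.redF_zero)

/-- `E_a + E_b + E_c - B` is principal -/
theorem principal (T : NTri a b c) :
    a.E + b.E + c.E - T.Bd ∈ Divisor.principal (K := L) (F := F) :=
  ⟨T.s0, T.s0_ne, fun P => by
    rw [Finsupp.sub_apply, ← T.ord_s0 P]; ring⟩

theorem e_mem_O₁ (T : NTri a b c) (j : Fin (2 * g + 1)) : T.e j ∈ D.nod.V₁.O :=
  (NodalDatum.mem_O.1 (T.e_orth.1 j)).1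

theorem e_mem_O₂ (T : NTri a b c) (j : Fin (2 * g + 1)) : T.e j ∈ D.nod.V₂.O :=
  (NodalDatum.mem_O.1 (T.e_orth.1 j)).2

theorem discReg_e_a (T : NTri a b c) (i : Fin g) (j : Fin (2 * g + 1)) :
    NDiscReg D (a.Qb i) (T.e j) :=
  nDiscReg_of_mem_rr (fun P hP => T.B_disc_a P i hP) (T.e_mem j) (T.e_mem_O₁ j) (T.e_mem_O₂ j)

theorem discReg_e_b (T : NTri a b c) (i : Fin g) (j : Fin (2 * g + 1)) :
    NDiscReg D (b.Qb i) (T.e j) :=
  nDiscReg_of_mem_rr (fun P hP => T.B_disc_b P i hP) (T.e_mem j) (T.e_mem_O₁ j) (T.e_mem_O₂ j)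

theorem discReg_e_c (T : NTri a b c) (i : Fin g) (j : Fin (2 * g + 1)) :
    NDiscReg D (c.Qb i) (T.e j) :=
  nDiscReg_of_mem_rr (fun P hP => T.B_disc_c P i hP) (T.e_mem j) (T.e_mem_O₁ j) (T.e_mem_O₂ j)

end NTri

/-! ### stable divisors, frames, the standing hypotheses of the lifting blocks -/

section FixD

variable (S : IAct A F G)

theorem fixD_zero : S.FixD 0 := fun _ => smul_zero _

theorem fixD_add {E E' : Divisor L F} (h : S.FixD E) (h' : S.FixD E') : S.FixD (E + E') :=
  fun g => by rw [smul_add, h g, h' g]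

theorem fixD_neg {E : Divisor L F} (h : S.FixD E) : S.FixD (-E) :=
  fun g => by rw [smul_neg, h g]

theorem fixD_sub {E E' : Divisor L F} (h : S.FixD E) (h' : S.FixD E') : S.FixD (E - E') :=
  fun g => by rw [smul_sub, h g, h' g]

theorem fixD_zsmul {E : Divisor L F} (h : S.FixD E) (n : ℤ) : S.FixD (n • E) := fun g => by
  have := map_zsmul (DistribSMul.toAddMonoidHom (Divisor L F) (S.ρ g)) n E
  rw [DistribSMul.toAddMonoidHom_apply, DistribSMul.toAddMonoidHom_apply] at this
  rw [this, h g]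

theorem fixD_sum {ι : Type*} (s : Finset ι) (E : ι → Divisor L F) (h : ∀ i ∈ s, S.FixD (E i)) :
    S.FixD (∑ i ∈ s, E i) := fun g => by
  rw [Finset.smul_sum]
  exact Finset.sum_congr rfl fun i hi => h i hi g

theorem fixD_single {P : Place L F} (hP : S.FixP P) (n : ℤ) : S.FixD (Finsupp.single P n) :=
  fun g => by rw [SemilinearAut.smul_single, hP g]

/-- the divisor of a fixed function is stable -/
theorem fixD_divOf {f : F} (hf : S.FixF f) : S.FixD (divOf (K := L) f) := fun g => by
  ext P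
  rw [SemilinearAut.divisor_smul_apply, divOf_apply', divOf_apply']
  have h1 := SemilinearAut.ord_smul (S.ρ g) ((S.ρ g)⁻¹ • P) f
  rw [smul_inv_smul, hf g] at h1
  exact h1.symm

end FixD

theorem NFam.fixD_E {D : NRedDatum A F F₁ F₂} {S : NSym D G} {g : ℕ} (a : NFam D S g) :
    S.FixD a.E :=
  fixD_sum S.toIAct _ _ fun i _ => fixD_single S.toIAct (a.fixP i) 1

/-- a frame: a stable effective divisor supported on the smooth locus which meets both components -/
structure NFrame {D : NRedDatum A F F₁ F₂} (S : NSym D G) where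
  /-- the divisor -/
  Y : Divisor L F
  nonneg : 0 ≤ Y
  smooth : D.SmoothSupp Y
  deg_pos₁ : 0 < Divisor.degree (RDiv.fst (D.push Y))
  deg_pos₂ : 0 < Divisor.degree (RDiv.snd (D.push Y))
  fixD : S.FixD Y

/-- the standing hypotheses of the lifting blocks (nodal port of `S19lib.B.LiftCtx`) -/
structure NLiftCtx (D : NRedDatum A F F₁ F₂) (S : NSym D G) (g g₁ g₂ : ℕ) : Prop where
  /-- the function-level hypotheses of LSb (genera, frames (N1), charts, (COUNT)) -/
  ctx : NodalCtx D.nod g g₁ g₂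
  infinite_k : Infinite (IsLocalRing.ResidueField A)
  lifts : S.HasFixedLifts
  frame : Nonempty (NFrame S)

namespace NLiftCtx

variable {D : NRedDatum A F F₁ F₂} {S : NSym D G} {g g₁ g₂ : ℕ} (C : NLiftCtx D S g g₁ g₂)
include C

theorem curve : IsCurveOfGenus L F g := C.ctx.hF

theorem curve₁ : IsCurveOfGenus (IsLocalRing.ResidueField A) F₁ g₁ := C.ctx.hF₁

theorem curve₂ : IsCurveOfGenus (IsLocalRing.ResidueField A) F₂ g₂ := C.ctx.hF₂

theorem orth : D.nod.HasOrthonormalBases := C.ctx.hD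

theorem degR_eq_one (q : Pt A F₁ F₂) : degR q = 1 := by
  rcases q with Q | Q
  · exact C.ctx.hF₁.deg_eq_one Q
  · exact C.ctx.hF₂.deg_eq_one Q

end NLiftCtx

/-! ### bridges to the pair language of `NRed`, `NB`, `Kum` -/

theorem NRedDatum.RR_push (D : NRedDatum A F F₁ F₂) (E : Divisor L F) :
    D.RR (D.push E) = D.nodal (D.push₁ E) (D.push₂ E) := by
  rw [NRedDatum.RR, D.fst_push, D.snd_push]

theorem NRedDatum.ellR_push (D : NRedDatum A F F₁ F₂) (E : Divisor L F) :
    D.ellR (D.push E) = D.ell (D.push₁ E) (D.push₂ E) := by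
  rw [NRedDatum.ellR, D.RR_push]
  rfl

namespace NFam

variable {D : NRedDatum A F F₁ F₂} {S : NSym D G} {g : ℕ} (a : NFam D S g)

theorem fst_Eb : RDiv.fst a.Eb = D.push₁ a.E := by rw [← a.push_E, D.fst_push]

theorem snd_Eb : RDiv.snd a.Eb = D.push₂ a.E := by rw [← a.push_E, D.snd_push]

/-- non-speciality in the pair language -/
theorem ell_push_E : D.ell (D.push₁ a.E) (D.push₂ a.E) = 1 := by
  rw [← D.ellR_push]; exact a.ellR_push_E

theorem ell_push_Dv (u : Fin g → L) : D.ell (D.push₁ (a.Dv u)) (D.push₂ (a.Dv u)) = 1 := by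
  rw [← D.ellR_push]; exact a.ellR_push_Dv u

theorem E_eq_sumPts : a.E = Core.sumPts fun i => (a.ch i).P0 := rfl

theorem r_P0 (i : Fin g) : D.r (a.ch i).P0 = some (a.Qb i) := (a.ch i).r_P0

/-- a sum of points, one in each disc of the family, is `Dv u` -/
theorem exists_eq_Dv_of_points (P : Fin g → Place L F) (hP : ∀ i, D.r (P i) = some (a.Qb i)) :
    ∃ u ∈ PolyDisc A (Fin g), a.Dv u = Core.sumPts P :=
  ⟨fun i => ev (P i) (a.ch i).t, fun i => (a.ch i).valuation_ev_lt_one (hP i),
    Finset.sum_congr rfl fun i _ => by rw [(a.ch i).pt_ev (hP i)]⟩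

end NFam

end Fermat.Agent.S33lib.N

end
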