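/-
S33lib / N / Trans  (helper3)  — Project LSp, block ND, part 1: port of `S19lib/D/Trans`

From analytic solutions of the trilinear relation `Θ_a u + Θ_b v + Θ_c w = 0` (`NSolve`) to
* the transition maps `chi` between two chart families of a configuration,
* the group law `addMap` and the negation `negMap` in the chart `a`,
with their specifications and their analyticity, given the composition property `CompStmt` of
analytic maps.  The elementary analytic maps (`inlMap`, `fstMap`, `CompStmt`, …) are those of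
`S19lib/D/Trans`.
-/
import Fermat.Agent.S33lib.N.Family
import Fermat.Agent.S19lib.D.Trans

set_option autoImplicit false
set_option linter.unusedSectionVars false

noncomputable section

namespace Fermat.Agent.S33lib.N

open AlgebraicCurve Fermat.Agent.S18lib Fermat.Agent.S19lib.D
open Fermat.Agent.S19lib (AnalyticOn AnalyticMap PolyDisc)

variable {L : Type*} [Field L] {A : ValuationSubring L}
variable {F : Type*} [Field F] [Algebra L F]
variable {F₁ F₂ : Type*} [Field F₁] [Field F₂]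
variable [Algebra (IsLocalRing.ResidueField A) F₁] [Algebra (IsLocalRing.ResidueField A) F₂]
variable [HasPrincipalDivisors L F]
variable [HasPrincipalDivisors (IsLocalRing.ResidueField A) F₁]
  [HasPrincipalDivisors (IsLocalRing.ResidueField A) F₂]
variable {G : Type*} [Group G] {D : NRedDatum A F F₁ F₂} {S : NSym D G} {g : ℕ} {ϖ : L}

section One

variable {a b c : NFam D S g} (s : NSolve a b c ϖ)

theorem _root_.Fermat.Agent.S33lib.N.NSolve.spec' {u v : Fin g → L} (hu : u ∈ PolyDisc A (Fin g)) (hv : v ∈ PolyDisc A (Fin g)) :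
    c.Θ (s.τ (Sum.elim u v)) = -(a.Θ u + b.Θ v) := by
  have := s.spec (Sum.elim u v) (elim_mem hu hv)
  exact eq_neg_of_add_eq_zero_right this

theorem _root_.Fermat.Agent.S33lib.N.NSolve.spec_inl {u : Fin g → L} (hu : u ∈ PolyDisc A (Fin g)) :
    c.Θ (s.τ (inlMap u)) = -a.Θ u := by
  have := s.spec' hu zero_mem_polyDisc
  rwa [b.Θ_zero, add_zero] at this

theorem _root_.Fermat.Agent.S33lib.N.NSolve.spec_inr {v : Fin g → L} (hv : v ∈ PolyDisc A (Fin g)) :
    c.Θ (s.τ (inrMap v)) = -b.Θ v := by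
  have := s.spec' zero_mem_polyDisc hv
  rwa [a.Θ_zero, zero_add] at this

end One

/-! ### a configuration: three solutions -/

/-- three admissible families with the three analytic solutions of their trilinear relation -/
structure NTrans (a b c : NFam D S g) (ϖ : L) where
  /-- solve for `c` -/
  sab : NSolve a b c ϖ
  /-- solve for `a` -/
  sbc : NSolve b c a ϖ
  /-- solve for `b` -/
  sca : NSolve c a b ϖ

namespace NTrans

variable {a b c : NFam D S g} (T : NTrans a b c ϖ)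

/-- the transition `a → b` : `Θ_b (chiAB v) = Θ_a v` -/
def chiAB (v : Fin g → L) : Fin g → L := T.sca.τ (inlMap (T.sab.τ (inlMap v)))

/-- the transition `b → a` : `Θ_a (chiBA v) = Θ_b v` -/
def chiBA (v : Fin g → L) : Fin g → L := T.sbc.τ (inrMap (T.sab.τ (inrMap v)))

/-- addition in the chart `a` -/
def addMap (w : Fin g ⊕ Fin g → L) : Fin g → L :=
  T.sbc.τ (inrMap (T.sab.τ (Sum.elim (fstMap w) (T.chiAB (sndMap w)))))

/-- negation in the chart `a` -/
def negMap (u : Fin g → L) : Fin g → L := T.sbc.τ (inlMap (T.chiAB u))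

theorem chiAB_mem {v : Fin g → L} (hv : v ∈ PolyDisc A (Fin g)) :
    T.chiAB v ∈ PolyDisc A (Fin g) :=
  T.sca.mem _ (inlMap_mem (T.sab.mem _ (inlMap_mem hv)))

theorem chiBA_mem {v : Fin g → L} (hv : v ∈ PolyDisc A (Fin g)) :
    T.chiBA v ∈ PolyDisc A (Fin g) :=
  T.sbc.mem _ (inrMap_mem (T.sab.mem _ (inrMap_mem hv)))

theorem Θ_chiAB {v : Fin g → L} (hv : v ∈ PolyDisc A (Fin g)) : b.Θ (T.chiAB v) = a.Θ v := by
  rw [chiAB, T.sca.spec_inl (T.sab.mem _ (inlMap_mem hv)), T.sab.spec_inl hv, neg_neg]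

theorem Θ_chiBA {v : Fin g → L} (hv : v ∈ PolyDisc A (Fin g)) : a.Θ (T.chiBA v) = b.Θ v := by
  rw [chiBA, T.sbc.spec_inr (T.sab.mem _ (inrMap_mem hv)), T.sab.spec_inr hv, neg_neg]

theorem addMap_mem {w : Fin g ⊕ Fin g → L} (hw : w ∈ PolyDisc A (Fin g ⊕ Fin g)) :
    T.addMap w ∈ PolyDisc A (Fin g) :=
  T.sbc.mem _ (inrMap_mem (T.sab.mem _ (elim_mem (fstMap_mem hw) (T.chiAB_mem (sndMap_mem hw)))))

theorem Θ_addMap {w : Fin g ⊕ Fin g → L} (hw : w ∈ PolyDisc A (Fin g ⊕ Fin g)) :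
    a.Θ (T.addMap w) = a.Θ (fstMap w) + a.Θ (sndMap w) := by
  rw [addMap, T.sbc.spec_inr (T.sab.mem _ (elim_mem (fstMap_mem hw) (T.chiAB_mem (sndMap_mem hw)))),
    T.sab.spec' (fstMap_mem hw) (T.chiAB_mem (sndMap_mem hw)), T.Θ_chiAB (sndMap_mem hw), neg_neg]

theorem negMap_mem {u : Fin g → L} (hu : u ∈ PolyDisc A (Fin g)) :
    T.negMap u ∈ PolyDisc A (Fin g) :=
  T.sbc.mem _ (inlMap_mem (T.chiAB_mem hu))

theorem Θ_negMap {u : Fin g → L} (hu : u ∈ PolyDisc A (Fin g)) : a.Θ (T.negMap u) = -a.Θ u := by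
  rw [negMap, T.sbc.spec_inl (T.chiAB_mem hu), T.Θ_chiAB hu]

/-! ### analyticity -/

variable (hcomp : CompStmt A S.R ϖ)
include hcomp

theorem analyticMap_chiAB : AnalyticMap A S.R ϖ T.chiAB := by
  have h1 : AnalyticMap A S.R ϖ (fun v : Fin g → L => T.sab.τ (inlMap v)) :=
    hcomp _ _ _ T.sab.τ inlMap T.sab.an analyticMap_inlMap (fun u hu => inlMap_mem hu)
  have h2 : AnalyticMap A S.R ϖ (fun v : Fin g → L => inlMap (T.sab.τ (inlMap v))) :=
    hcomp _ _ _ inlMap _ analyticMap_inlMap h1 (fun u hu => T.sab.mem _ (inlMap_mem hu))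
  exact hcomp _ _ _ T.sca.τ _ T.sca.an h2
    (fun u hu => inlMap_mem (T.sab.mem _ (inlMap_mem hu)))

theorem analyticMap_chiBA : AnalyticMap A S.R ϖ T.chiBA := by
  have h1 : AnalyticMap A S.R ϖ (fun v : Fin g → L => T.sab.τ (inrMap v)) :=
    hcomp _ _ _ T.sab.τ inrMap T.sab.an analyticMap_inrMap (fun u hu => inrMap_mem hu)
  have h2 : AnalyticMap A S.R ϖ (fun v : Fin g → L => inrMap (T.sab.τ (inrMap v))) :=
    hcomp _ _ _ inrMap _ analyticMap_inrMap h1 (fun u hu => T.sab.mem _ (inrMap_mem hu))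
  exact hcomp _ _ _ T.sbc.τ _ T.sbc.an h2
    (fun u hu => inrMap_mem (T.sab.mem _ (inrMap_mem hu)))

theorem analyticMap_addMap : AnalyticMap A S.R ϖ T.addMap := by
  have h0 : AnalyticMap A S.R ϖ (fun w : Fin g ⊕ Fin g → L => T.chiAB (sndMap w)) :=
    hcomp _ _ _ T.chiAB sndMap (T.analyticMap_chiAB hcomp) analyticMap_sndMap
      (fun w hw => sndMap_mem hw)
  have h1 : AnalyticMap A S.R ϖ
      (fun w : Fin g ⊕ Fin g → L => (Sum.elim (fstMap w) (T.chiAB (sndMap w)) : Fin g ⊕ Fin g → L)) :=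
    analyticMap_elim analyticMap_fstMap h0
  have h2 : AnalyticMap A S.R ϖ
      (fun w : Fin g ⊕ Fin g → L => T.sab.τ (Sum.elim (fstMap w) (T.chiAB (sndMap w)))) :=
    hcomp _ _ _ T.sab.τ _ T.sab.an h1
      (fun w hw => elim_mem (fstMap_mem hw) (T.chiAB_mem (sndMap_mem hw)))
  have h3 : AnalyticMap A S.R ϖ
      (fun w : Fin g ⊕ Fin g → L =>
        inrMap (T.sab.τ (Sum.elim (fstMap w) (T.chiAB (sndMap w))))) :=
    hcomp _ _ _ inrMap _ analyticMap_inrMap h2
      (fun w hw => T.sab.mem _ (elim_mem (fstMap_mem hw) (T.chiAB_mem (sndMap_mem hw))))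
  exact hcomp _ _ _ T.sbc.τ _ T.sbc.an h3
    (fun w hw => inrMap_mem
      (T.sab.mem _ (elim_mem (fstMap_mem hw) (T.chiAB_mem (sndMap_mem hw)))))

theorem analyticMap_negMap : AnalyticMap A S.R ϖ T.negMap := by
  have h1 : AnalyticMap A S.R ϖ (fun u : Fin g → L => inlMap (T.chiAB u)) :=
    hcomp _ _ _ inlMap _ analyticMap_inlMap (T.analyticMap_chiAB hcomp)
      (fun u hu => T.chiAB_mem hu)
  exact hcomp _ _ _ T.sbc.τ _ T.sbc.an h1 (fun u hu => inlMap_mem (T.chiAB_mem hu))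

end NTrans

end Fermat.Agent.S33lib.N

end
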