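/-
S33lib / N / Transport  (helper3)  — Project LSp, block ND, part 2: port of the inertia part of
`S19lib/D/Transport`

* `IAct.hat_inv_hat`, `hat_mem_iff`, `valuation_hat_lt_one`, `hat_mem_polyDisc` : the action on the
  constants preserves `A` and `𝔪_A`;
* `smul_mem_NKred` : the kernel of reduction is stable;
* `NFam.Θ_smul` : `a.Θ (ĝ u) = g • a.Θ u` for every symmetry `g` (all of them are of inertia type).
-/
import Fermat.Agent.S33lib.N.Trans

set_option autoImplicit false
set_option linter.unusedSectionVars false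

noncomputable section

namespace Fermat.Agent.S33lib.N

open AlgebraicCurve Fermat.Agent.LSb Fermat.Agent.S18lib Fermat.Agent.S19lib.C
open Fermat.Agent.S19lib (AnalyticOn AnalyticMap PolyDisc)

variable {L : Type*} [Field L] {A : ValuationSubring L}
variable {F : Type*} [Field F] [Algebra L F]
variable {G : Type*} [Group G]

/-! ### the base action on `A` -/

namespace IAct

variable (S : IAct A F G)

theorem hat_inv_hat (g : G) (x : L) : S.hat g⁻¹ (S.hat g x) = x := by
  show SemilinearAut.baseAut (S.ρ g⁻¹) (SemilinearAut.baseAut (S.ρ g) x) = x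
  rw [map_inv, SemilinearAut.baseAut_inv, RingEquiv.symm_apply_apply]

theorem hat_hat_inv (g : G) (x : L) : S.hat g (S.hat g⁻¹ x) = x := by
  have := S.hat_inv_hat g⁻¹ x
  rwa [inv_inv] at this

theorem hat_mem_iff (g : G) (x : L) : S.hat g x ∈ A ↔ x ∈ A := by
  refine ⟨fun h => ?_, S.mem_A g x⟩
  have := S.mem_A g⁻¹ _ h
  rwa [show SemilinearAut.baseAut (S.ρ g⁻¹) (S.hat g x) = S.hat g⁻¹ (S.hat g x) from rfl,
    S.hat_inv_hat] at this

theorem hat_zero (g : G) : S.hat g 0 = 0 := map_zero (SemilinearAut.baseAut (S.ρ g))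

theorem hat_inv₀ (g : G) (x : L) : S.hat g x⁻¹ = (S.hat g x)⁻¹ :=
  map_inv₀ (SemilinearAut.baseAut (S.ρ g)) x

/-- `ĝ` preserves the maximal ideal -/
theorem valuation_hat_lt_one (g : G) {x : L} (hx : A.valuation x < 1) :
    A.valuation (S.hat g x) < 1 := by
  by_contra hnot
  push Not at hnot
  have hx0 : x ≠ 0 := by
    rintro rfl
    rw [S.hat_zero, map_zero] at hnot
    exact absurd hnot (not_le.2 zero_lt_one)
  have h1 : A.valuation (S.hat g x)⁻¹ ≤ 1 := by
    rw [map_inv₀]
    exact inv_le_one_of_one_le₀ hnot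
  have h2 : (S.hat g x)⁻¹ ∈ A := (A.valuation_le_one_iff _).1 h1
  rw [← S.hat_inv₀] at h2
  have h3 : x⁻¹ ∈ A := (S.hat_mem_iff g _).1 h2
  have h4 : A.valuation x⁻¹ ≤ 1 := (A.valuation_le_one_iff _).2 h3
  rw [map_inv₀] at h4
  have h5 : 1 ≤ A.valuation x := by
    have hpos : 0 < A.valuation x := by
      rw [zero_lt_iff]; exact (Valuation.ne_zero_iff _).2 hx0
    exact (inv_le_one₀ hpos).1 h4
  exact absurd hx (not_lt.2 h5)

theorem hat_mem_polyDisc (g : G) {ι : Type*} {u : ι → L} (hu : u ∈ PolyDisc A ι) :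
    (fun i => S.hat g (u i)) ∈ PolyDisc A ι := fun i => S.valuation_hat_lt_one g (hu i)

end IAct

variable {F₁ F₂ : Type*} [Field F₁] [Field F₂]
variable [Algebra (IsLocalRing.ResidueField A) F₁] [Algebra (IsLocalRing.ResidueField A) F₂]
variable [HasPrincipalDivisors L F]
variable [HasPrincipalDivisors (IsLocalRing.ResidueField A) F₁]
  [HasPrincipalDivisors (IsLocalRing.ResidueField A) F₂]
variable {D : NRedDatum A F F₁ F₂} (S : NSym D G)

/-! ### the kernel of reduction is stable -/

theorem NSym.smoothSupp_smul (g : G) {E : Divisor L F} (hE : D.SmoothSupp E) :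
    D.SmoothSupp (S.ρ g • E) := by
  intro P hP
  rw [SemilinearAut.divisor_smul_apply] at hP
  have := hE _ hP
  rwa [← map_inv, S.r_smul] at this

theorem NSym.push_smul (g : G) (E : Divisor L F) : D.push (S.ρ g • E) = D.push E := by
  ext q
  rw [D.push_apply, D.push_apply, SemilinearAut.divisor_smul_def, ← Finsupp.mapDomain_comp]
  congr 2
  funext P
  exact S.r_smul g P

theorem smul_mem_NKred (g : G) {z : Pic0 L F} (hz : z ∈ NKred D) : S.ρ g • z ∈ NKred D := by
  obtain ⟨E, rfl, hE, hE0⟩ := hz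
  rw [SemilinearAut.pic0_smul_mk]
  refine ⟨_, rfl, ?_, ?_⟩
  · rw [SemilinearAut.coe_degZeroSMulHom]
    exact S.smoothSupp_smul g hE
  · rw [SemilinearAut.coe_degZeroSMulHom, S.push_smul, hE0]

/-! ### equivariance of the parametrisation -/

variable {g₀ : ℕ}

/-- **equivariance of the parametrisation** -/
theorem NFam.Θ_smul {S : NSym D G} (a : NFam D S g₀) (g : G) {u : Fin g₀ → L}
    (hu : u ∈ PolyDisc A (Fin g₀)) :
    a.Θ (fun i => S.hat g (u i)) = S.ρ g • a.Θ u := by
  rw [NFam.Θ, NFam.Θ, SemilinearAut.pic0_smul_mk]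
  refine congrArg Pic0.mk (Subtype.ext ?_)
  rw [SemilinearAut.coe_degZeroSMulHom]
  show a.Dv _ - a.E = S.ρ g • (a.Dv u - a.E)
  rw [smul_sub]
  congr 1
  · rw [NFam.Dv, NFam.Dv, Finset.smul_sum]
    refine Finset.sum_congr rfl fun i _ => ?_
    rw [SemilinearAut.smul_single, (a.ch i).smul_pt S (a.fixT i) g (hu i)]
    rfl
  · rw [NFam.E, Finset.smul_sum]
    refine Finset.sum_congr rfl fun i _ => ?_
    rw [SemilinearAut.smul_single, a.fixP i g]

end Fermat.Agent.S33lib.N

end
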