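/-
S33lib / N / Germ  (helper3)  — Project LSp, block ND, part 3: port of `S19lib/D/Germ`

**The abstract analytic germ** on `Pic⁰(F)` of the nodal model, from the statements of
`N/Family.lean` (`NExistsFamStmt`, `NExistsTriStmt`, `NKerStmt`) and the composition property of
analytic maps:

* `exists_tri` : a configuration through a given family;
* `coordOf a` : the inverse of `Θ_a` on the kernel of reduction;
* `exists_germ` : the package (group law and negation analytic; inertia equivariance).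
-/
import Fermat.Agent.S33lib.N.Transport

set_option autoImplicit false
set_option linter.unusedSectionVars false

noncomputable section

namespace Fermat.Agent.S33lib.N

open AlgebraicCurve Fermat.Agent.LSb Fermat.Agent.S18lib Fermat.Agent.S19lib.C
open Fermat.Agent.S19lib.D (CompStmt fstMap sndMap)
open Fermat.Agent.S19lib (AnalyticOn AnalyticMap PolyDisc)

variable {L : Type*} [Field L] {A : ValuationSubring L}
variable {F : Type*} [Field F] [Algebra L F]
variable {F₁ F₂ : Type*} [Field F₁] [Field F₂]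
variable [Algebra (IsLocalRing.ResidueField A) F₁] [Algebra (IsLocalRing.ResidueField A) F₂]
variable [HasPrincipalDivisors L F]
variable [HasPrincipalDivisors (IsLocalRing.ResidueField A) F₁]
  [HasPrincipalDivisors (IsLocalRing.ResidueField A) F₂]
variable {G : Type*} [Group G] {D : NRedDatum A F F₁ F₂} {S : NSym D G} {g : ℕ} {ϖ : L}

/-! ### configurations through a given family -/

theorem exists_tri (hY : NExistsFamStmt D S g) (hX : NExistsTriStmt D S g ϖ) (a : NFam D S g)
    (T : Finset (Pt A F₁ F₂)) :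
    ∃ b c : NFam D S g, a.Disjoint b ∧ b.Avoids T ∧ Nonempty (NTrans a b c ϖ) := by
  classical
  obtain ⟨b, hb⟩ := hY (T ∪ Finset.univ.image a.Qb)
  have hab : a.Disjoint b := fun i j h =>
    hb j (Finset.mem_union_right _ (Finset.mem_image.2 ⟨i, Finset.mem_univ _, h⟩))
  obtain ⟨c, -, -, -, ⟨s1⟩, ⟨s2⟩, ⟨s3⟩⟩ := hX a b hab ∅
  exact ⟨b, c, hab, fun j h => hb j (Finset.mem_union_left _ h), ⟨⟨s1, s2, s3⟩⟩⟩

/-! ### coordinates -/

open Classical in
/-- the inverse of `Θ_a` -/
def coordOf (a : NFam D S g) (z : Pic0 L F) : Fin g → L :=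
  if h : ∃ u ∈ PolyDisc A (Fin g), a.Θ u = z then h.choose else 0

theorem coordOf_spec (hK : NKerStmt D S g) (a : NFam D S g) {z : Pic0 L F} (hz : z ∈ NKred D) :
    coordOf a z ∈ PolyDisc A (Fin g) ∧ a.Θ (coordOf a z) = z := by
  classical
  have h := (hK a).1 z hz
  rw [coordOf, dif_pos h]
  exact h.choose_spec

theorem coordOf_Θ (hK : NKerStmt D S g) (a : NFam D S g) {u : Fin g → L}
    (hu : u ∈ PolyDisc A (Fin g)) : coordOf a (a.Θ u) = u := by
  obtain ⟨h1, h2⟩ := coordOf_spec hK a (a.Θ_mem_NKred u)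
  exact (hK a).2 _ h1 _ hu h2

/-! ### the germ -/

/-- **the abstract germ of the nodal model** -/
theorem exists_germ (hY : NExistsFamStmt D S g) (hX : NExistsTriStmt D S g ϖ)
    (hK : NKerStmt D S g) (hcomp : CompStmt A S.R ϖ) :
    ∃ (Θ : (Fin g → L) → Pic0 L F) (coord : Pic0 L F → Fin g → L),
      (∀ u ∈ PolyDisc A (Fin g), Θ u ∈ NKred D) ∧
      (∀ z ∈ NKred D, coord z ∈ PolyDisc A (Fin g)) ∧
      (∀ u ∈ PolyDisc A (Fin g), coord (Θ u) = u) ∧
      (∀ z ∈ NKred D, Θ (coord z) = z) ∧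
      (∀ h : G, ∀ u ∈ PolyDisc A (Fin g), Θ (fun i => S.hat h (u i)) = S.ρ h • Θ u) ∧
      AnalyticMap A S.R ϖ (fun w : Fin g ⊕ Fin g → L => coord (Θ (fstMap w) + Θ (sndMap w))) ∧
      AnalyticMap A S.R ϖ (fun u : Fin g → L => coord (-Θ u)) := by
  obtain ⟨a, -⟩ := hY ∅
  obtain ⟨b, c, -, -, ⟨T⟩⟩ := exists_tri hY hX a ∅
  refine ⟨a.Θ, coordOf a, fun u _ => a.Θ_mem_NKred u, fun z hz => (coordOf_spec hK a hz).1,
    fun u hu => coordOf_Θ hK a hu, fun z hz => (coordOf_spec hK a hz).2,
    fun h u hu => a.Θ_smul h hu, ?_, ?_⟩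
  · -- addition
    intro i
    refine (T.analyticMap_addMap hcomp i).congr A fun w hw => ?_
    show T.addMap w i = coordOf a (a.Θ (fstMap w) + a.Θ (sndMap w)) i
    rw [← T.Θ_addMap hw, coordOf_Θ hK a (T.addMap_mem hw)]
  · -- negation
    intro i
    refine (T.analyticMap_negMap hcomp i).congr A fun u hu => ?_
    show T.negMap u i = coordOf a (-a.Θ u) i
    rw [← T.Θ_negMap hu, coordOf_Θ hK a (T.negMap_mem hu)]

end Fermat.Agent.S33lib.N

end
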