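/-
S33lib / N / Main  (helper3)  — Project LSp, block ND, the GLUE of track B

From the concrete nodal package `NModInst N p A` (nodal reduction datum of level `N`, symmetry data
of the inertia group acting through `arithmeticGalois`, the geometric statements of
`N/Family.lean`) to

* `NModInst.exists_iGerm` : the inertia-level germ `Germ.IGerm A p (JZero N)` with `K = NKred D`;
* `NModInst.kumSub_le_NKred` : the Kummer subgroups lie in the kernel of reduction
  (helper7's link `Kum.exists_points_of_mem_kumSub_nRed` + `NFam.exists_eq_Dv_of_points`);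
* `NModInst.exists_pFilt` : the data of `PFiltStmt` at `(A, n)`;
* `pFiltStmt_of_nModInst`, `geomPStmtDirect_of_nModInst`.
-/
import Fermat.Agent.S33lib.N.Germ
import Fermat.Agent.S33lib.Germ.PFilt
import Fermat.Agent.S33lib.Kum.NLink
import Fermat.Agent.S33lib.Kum.JZero
import Fermat.Agent.S19lib.D.Comp
import Fermat.Agent.S18lib.Setup.Modular
import Fermat.Agent.S18lib.V.Frame

set_option autoImplicit false
set_option linter.unusedSectionVars false

noncomputable section

namespace Fermat.Agent.S33lib.N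

open AlgebraicCurve ModularCurve Fermat.Agent.LSb Fermat.Agent.S18lib Fermat.Agent.S19lib
open Fermat.Agent.S19lib.D (CompStmt compStmt_A0 fstMap sndMap)

local notation "Qb" => AlgebraicClosure ℚ
local notation "GQ" => (AlgebraicClosure ℚ ≃ₐ[ℚ] AlgebraicClosure ℚ)

/-- the concrete nodal package at level `N` -/
structure NModInst (N : ℕ) [NeZero N] (p : ℕ) (A : ValuationSubring Qb) where
  /-- the function fields of the two components of the special fibre -/
  F₁ : Type
  F₂ : Type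
  fld₁ : Field F₁
  fld₂ : Field F₂
  alg₁ : Algebra (kRes A) F₁
  alg₂ : Algebra (kRes A) F₂
  /-- the genera -/
  g : ℕ
  g₁ : ℕ
  g₂ : ℕ
  hpd : HasPrincipalDivisors Qb (FBar N)
  hpd₁ : HasPrincipalDivisors (kRes A) F₁
  hpd₂ : HasPrincipalDivisors (kRes A) F₂
  /-- the nodal reduction datum -/
  D : NRedDatum A (FBar N) F₁ F₂
  ctx : NodalCtx D.nod g g₁ g₂
  inertial : ∀ σ ∈ IA A, D.nod.IsInertial (arithmeticGalois (modularFunctionFieldFull N) σ)
  /-- the symmetries: the inertia group -/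
  S : NSym D ↥(IA A)
  ρ_eq : ∀ h : ↥(IA A), S.ρ h = arithmeticGalois (modularFunctionFieldFull N) (h : GQ)
  famS : NExistsFamStmt D S g
  triS : NExistsTriStmt D S g ((p : ℕ) : Qb)
  kerS : NKerStmt D S g

namespace NModInst

attribute [instance] NModInst.fld₁ NModInst.fld₂ NModInst.alg₁ NModInst.alg₂
  NModInst.hpd₁ NModInst.hpd₂

variable {N : ℕ} [NeZero N] {p : ℕ} {A : ValuationSubring Qb} (M : NModInst N p A)

theorem hat_apply (h : ↥(IA A)) (x : Qb) : M.S.hat h x = (h : GQ) x := by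
  show SemilinearAut.baseAut (M.S.ρ h) x = _
  rw [M.ρ_eq]
  rfl

theorem smul_eq (h : ↥(IA A)) (z : JZero N) : M.S.ρ h • z = (h : GQ) • z := by
  rw [M.ρ_eq]
  rfl

/-- the fixed ring of the package is `A0 A` -/
theorem R_eq : M.S.R = A0 A := by
  ext a
  constructor
  · rintro ⟨haA, hfix⟩
    refine ⟨haA, fun σ hσ => ?_⟩
    have := hfix ⟨σ, hσ⟩
    rwa [show SemilinearAut.baseAut (M.S.ρ ⟨σ, hσ⟩) a = M.S.hat ⟨σ, hσ⟩ a from rfl,
      M.hat_apply] at this
  · rintro ⟨haA, hfix⟩
    refine ⟨haA, fun h => ?_⟩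
    show M.S.hat h a = a
    rw [M.hat_apply]
    exact hfix _ h.2

/-- **the inertia-level germ of the nodal model** -/
theorem exists_iGerm (hcomp : CompStmt A (A0 A) ((p : ℕ) : Qb)) :
    ∃ G : Germ.IGerm A p (JZero N), G.K = NKred M.D := by
  have hcomp' : CompStmt A M.S.R ((p : ℕ) : Qb) := by rw [M.R_eq]; exact hcomp
  obtain ⟨Θ, coord, h1, h2, h3, h4, h5, hadd, hneg⟩ :=
    exists_germ M.famS M.triS M.kerS hcomp'
  rw [M.R_eq] at hadd hneg
  refine ⟨{ g := M.g
            K := NKred M.D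
            Θ := Θ
            coord := coord
            coord_mem := fun x hx i => h2 x hx i
            coord_Θ := fun u hu => h3 u hu
            Θ_coord := fun x hx => h4 x hx
            Θ_smul := fun σ hσ u hu => by
              have := h5 ⟨σ, hσ⟩ u hu
              rw [M.smul_eq] at this
              rw [← this]
              congr 1
              funext i
              exact (M.hat_apply ⟨σ, hσ⟩ (u i)).symm
            add_analytic := fun i => (a0Analytic_iff A p _).2 (hadd i)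
            neg_analytic := fun i => (a0Analytic_iff A p _).2 (hneg i) }, rfl⟩

/-- **the Kummer subgroups lie in the kernel of reduction** -/
theorem kumSub_le_NKred [ExpChar (kRes A) p] (n : ℕ) :
    Kum.kumSub M.D.nod (p ^ n) ≤ NKred M.D := by
  intro x hx
  obtain ⟨a, -⟩ := M.famS ∅
  obtain ⟨P, hP, hdeg, rfl⟩ := Kum.exists_points_of_mem_kumSub_nRed M.D M.ctx
    (fun i => (a.ch i).P0) a.Qb a.r_P0 a.inj a.ell_push_E p n hx
  obtain ⟨u, -, hu⟩ := a.exists_eq_Dv_of_points P hP
  have : Pic0.mk ⟨Core.sumPts P - Core.sumPts (fun i => (a.ch i).P0), hdeg⟩ = a.Θ u := by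
    rw [NFam.Θ]
    refine congrArg Pic0.mk (Subtype.ext ?_)
    show Core.sumPts P - Core.sumPts (fun i => (a.ch i).P0) = a.Dv u - a.E
    rw [hu]
    rfl
  rw [this]
  exact a.Θ_mem_NKred u

include M in
/-- **the data of `PFiltStmt` at `(A, n)`** -/
theorem exists_pFilt [Fact p.Prime] (hA : A.LiesOverPrime p) (n : ℕ) :
    ∃ (G : Germ.IGerm A p (JZero N)) (K : AddSubgroup (JZero N)),
      K ≤ tors N ((p : ℤ) ^ n) ∧ K ≤ G.K ∧
      (∀ σ ∈ IA A, ∀ x ∈ K, σ • x ∈ K) ∧
      (∀ σ ∈ IA A, ∀ τ ∈ IA A, ∀ x ∈ tors N ((p : ℤ) ^ n),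
        σ • (τ • x - x) - (τ • x - x) ∈ K) := by
  haveI : CharP (kRes A) p := Fermat.Agent.S18lib.V.charP_residueField A hA
  haveI : ExpChar (kRes A) p := ExpChar.prime (Fact.out : p.Prime)
  obtain ⟨G, hG⟩ := M.exists_iGerm (compStmt_A0 A hA)
  refine ⟨G, Kum.kumSub M.D.nod (p ^ n), ?_, ?_, ?_, ?_⟩
  · intro x hx
    have h0 := Kum.nsmul_eq_zero_of_mem hx
    show x ∈ Submodule.torsionBy ℤ (JZero N) ((p : ℤ) ^ n)
    rw [Submodule.mem_torsionBy_iff]
    rw [← h0, ← natCast_zsmul]
    push_cast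
    rfl
  · rw [hG]
    exact M.kumSub_le_NKred n
  · intro σ hσ x hx
    exact Kum.jZero_smul_mem σ (M.inertial σ hσ) hx
  · intro σ hσ τ hτ x hx
    refine Kum.jZero_comm_mem σ τ (M.inertial σ hσ) (M.inertial τ hτ) ?_
    have h1 : ((p : ℤ) ^ n) • x = 0 := (Submodule.mem_torsionBy_iff _ _).1 hx
    rw [← h1, ← natCast_zsmul]
    push_cast
    rfl

end NModInst

/-- **`PFiltStmt` from the nodal packages** -/
theorem pFiltStmt_of_nModInst {N : ℕ} [NeZero N] {p : ℕ} [Fact p.Prime]
    (hM : ∀ A : ValuationSubring Qb, A.LiesOverPrime p → Nonempty (NModInst N p A)) :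
    PFiltStmt N p :=
  Germ.pFiltStmt_of_iGerm fun A hA n => by
    obtain ⟨M⟩ := hM A hA
    exact M.exists_pFilt hA n

/-- **`GeomPStmtDirect` from the nodal packages** -/
theorem geomPStmtDirect_of_nModInst
    (hM : ∀ (N : ℕ) [NeZero N] (p : ℕ), p.Prime → p ≠ 2 → p ∣ N → ¬ p ^ 2 ∣ N → (p = 3 → 4 ∣ N) →
      ∀ A : ValuationSubring Qb, A.LiesOverPrime p → Nonempty (NModInst N p A)) :
    GeomPStmtDirect := by
  intro N _ p hp hp2 hpN hp2N h3
  haveI : Fact p.Prime := ⟨hp⟩
  exact pFiltStmt_of_nModInst fun A hA => hM N p hp hp2 hpN hp2N h3 A hA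

end Fermat.Agent.S33lib.N

end
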