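/-
S33lib / N / Chart  (helper3, architect of track B)  — Project LSp, geometry interface, part 2

Component-agnostic wrappers over the points `q : Pt = Place k F₁ ⊕ Place k F₂` of the special fibre
of the nodal model.  SINGLE-centre statements are proved over one `DiscDatum` (`S33lib/NC`,
`S33lib/NAn`) and wrapped here by cases on `q`; MULTI-centre statements (families, configurations)
are stated with the wrappers.

* `RDiv`            : residue divisors = finitely supported functions on `Pt`; `RDiv.fst/snd`,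
                      `ptR q`, `D.push : Divisor L F →+ RDiv`, `D.RR E` (the nodal Riemann–Roch
                      space of `LSb/Core/NodalRR`), `D.ellR E`;
* `D.red_mem'`      : **(RED)** in this language; `D.push_divOf₁/₂` : **(LC)**;
* `evR q φ`, `ordR q φ` : value / order at `q` of a pair `φ : F₁ × F₂`;
* `NDiscReg D q f`  : `f` lies in the valuation ring of the component of `q` and is regular on the
                      residue disc of `q`;
* `NChart D q`      : a centred parameter on the residue disc of `q`, with the API of `NC.Chart`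
                      (`pt`, `r_pt`, `ev_pt`, `pt_ev`, `pt_zero`, `pt_injOn`, `valuation_ev_lt_one`,
                      `smul_pt`, `fixP_pt`, `analyticOn_ev_fixed`).
-/
import Fermat.Agent.S33lib.NC.Taylor

set_option autoImplicit false
set_option linter.unusedSectionVars false

noncomputable section

namespace Fermat.Agent.S33lib.N

open AlgebraicCurve Fermat.Agent.LSb Fermat.Agent.S18lib Fermat.Agent.S19lib.C
open Fermat.Agent.S19lib (AnalyticOn)

variable {L : Type*} [Field L] {A : ValuationSubring L}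
variable {F : Type*} [Field F] [Algebra L F]
variable {F₁ F₂ : Type*} [Field F₁] [Field F₂]
variable [Algebra (IsLocalRing.ResidueField A) F₁] [Algebra (IsLocalRing.ResidueField A) F₂]

local notation "k" => IsLocalRing.ResidueField A

/-! ### residue divisors -/

/-- residue divisors: divisors on the disjoint union of the two components -/
abbrev RDiv (A : ValuationSubring L) (F₁ F₂ : Type*) [Field F₁] [Field F₂]
    [Algebra (IsLocalRing.ResidueField A) F₁] [Algebra (IsLocalRing.ResidueField A) F₂] : Type _ :=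
  Pt A F₁ F₂ →₀ ℤ

/-- the part of a residue divisor on the first component -/
def RDiv.fst : RDiv A F₁ F₂ →+ Divisor k F₁ :=
  Finsupp.comapDomain.addMonoidHom Sum.inl_injective

/-- the part of a residue divisor on the second component -/
def RDiv.snd : RDiv A F₁ F₂ →+ Divisor k F₂ :=
  Finsupp.comapDomain.addMonoidHom Sum.inr_injective

theorem RDiv.fst_apply (E : RDiv A F₁ F₂) (Q : Place k F₁) : RDiv.fst E Q = E (Sum.inl Q) := rfl

theorem RDiv.snd_apply (E : RDiv A F₁ F₂) (Q : Place k F₂) : RDiv.snd E Q = E (Sum.inr Q) := rfl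

/-- the point `q` as a residue divisor -/
abbrev ptR (q : Pt A F₁ F₂) : RDiv A F₁ F₂ := Finsupp.single q 1

theorem RDiv.fst_single_inl (Q : Place k F₁) (n : ℤ) :
    RDiv.fst (Finsupp.single (Sum.inl Q : Pt A F₁ F₂) n) = Finsupp.single Q n := by
  classical
  ext Q'
  rw [RDiv.fst_apply, Finsupp.single_apply, Finsupp.single_apply]
  simp only [Sum.inl.injEq]

theorem RDiv.fst_single_inr (Q : Place k F₂) (n : ℤ) :
    RDiv.fst (Finsupp.single (Sum.inr Q : Pt A F₁ F₂) n) = 0 := by
  classical
  ext Q'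
  rw [RDiv.fst_apply, Finsupp.single_apply, if_neg (by simp)]
  rfl

theorem RDiv.snd_single_inr (Q : Place k F₂) (n : ℤ) :
    RDiv.snd (Finsupp.single (Sum.inr Q : Pt A F₁ F₂) n) = Finsupp.single Q n := by
  classical
  ext Q'
  rw [RDiv.snd_apply, Finsupp.single_apply, Finsupp.single_apply]
  simp only [Sum.inr.injEq]

theorem RDiv.snd_single_inl (Q : Place k F₁) (n : ℤ) :
    RDiv.snd (Finsupp.single (Sum.inl Q : Pt A F₁ F₂) n) = 0 := by
  classical
  ext Q'
  rw [RDiv.snd_apply, Finsupp.single_apply, if_neg (by simp)]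
  rfl

/-- a residue divisor is determined by its two parts -/
theorem RDiv.ext' {E E' : RDiv A F₁ F₂} (h₁ : RDiv.fst E = RDiv.fst E')
    (h₂ : RDiv.snd E = RDiv.snd E') : E = E' := by
  ext q
  rcases q with Q | Q
  · exact DFunLike.congr_fun h₁ Q
  · exact DFunLike.congr_fun h₂ Q

/-! ### value and order at a point of the special fibre -/

/-- the value at `q` of a pair of functions -/
def evR : Pt A F₁ F₂ → F₁ × F₂ → k
  | Sum.inl Q, φ => ev Q φ.1
  | Sum.inr Q, φ => ev Q φ.2

/-- the order at `q` of a pair of functions -/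
def ordR : Pt A F₁ F₂ → F₁ × F₂ → ℤ
  | Sum.inl Q, φ => Q.ord φ.1
  | Sum.inr Q, φ => Q.ord φ.2

@[simp] theorem evR_inl (Q : Place k F₁) (φ : F₁ × F₂) :
    evR (A := A) (Sum.inl Q) φ = ev Q φ.1 := rfl

@[simp] theorem evR_inr (Q : Place k F₂) (φ : F₁ × F₂) :
    evR (A := A) (Sum.inr Q) φ = ev Q φ.2 := rfl

@[simp] theorem ordR_inl (Q : Place k F₁) (φ : F₁ × F₂) :
    ordR (A := A) (Sum.inl Q) φ = Q.ord φ.1 := rfl

@[simp] theorem ordR_inr (Q : Place k F₂) (φ : F₁ × F₂) :
    ordR (A := A) (Sum.inr Q) φ = Q.ord φ.2 := rfl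

/-- the degree of a point of the special fibre -/
def degR : Pt A F₁ F₂ → ℕ
  | Sum.inl Q => Q.deg
  | Sum.inr Q => Q.deg

variable [HasPrincipalDivisors L F]

/-! ### push-forward, (RED), (LC) -/

namespace NRedDatum

variable (D : NRedDatum A F F₁ F₂)

/-- push-forward of divisors to the special fibre (the points of the annuli are forgotten) -/
def push : Divisor L F →+ RDiv A F₁ F₂ := pushO D.r

theorem push_apply (E : Divisor L F) (q : Pt A F₁ F₂) :
    D.push E q = Finsupp.mapDomain D.r E (some q) := rfl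

theorem push_single_of_eq {P : Place L F} {q : Pt A F₁ F₂} (h : D.r P = some q) (n : ℤ) :
    D.push (Finsupp.single P n) = Finsupp.single q n := pushO_single_of_eq D.r h n

theorem push_single_of_none {P : Place L F} (h : D.r P = none) (n : ℤ) :
    D.push (Finsupp.single P n) = 0 := pushO_single_of_none D.r h n

theorem fst_push (E : Divisor L F) : RDiv.fst (D.push E) = D.push₁ E := by
  classical
  have h : (RDiv.fst.comp D.push : Divisor L F →+ Divisor k F₁) = D.push₁ := by
    refine Finsupp.addHom_ext fun P n => ?_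
    ext Q
    show D.push (Finsupp.single P n) (Sum.inl Q) = pushO (fst? D.r) (Finsupp.single P n) Q
    rw [push, pushO_single, pushO_single]
    by_cases h : D.r P = some (Sum.inl Q)
    · rw [if_pos h, if_pos (fst?_eq_some.2 h)]
    · rw [if_neg h, if_neg (fun h' => h (fst?_eq_some.1 h'))]
  exact DFunLike.congr_fun h E

theorem snd_push (E : Divisor L F) : RDiv.snd (D.push E) = D.push₂ E := by
  classical
  have h : (RDiv.snd.comp D.push : Divisor L F →+ Divisor k F₂) = D.push₂ := by
    refine Finsupp.addHom_ext fun P n => ?_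
    ext Q
    show D.push (Finsupp.single P n) (Sum.inr Q) = pushO (snd? D.r) (Finsupp.single P n) Q
    rw [push, pushO_single, pushO_single]
    by_cases h : D.r P = some (Sum.inr Q)
    · rw [if_pos h, if_pos (snd?_eq_some.2 h)]
    · rw [if_neg h, if_neg (fun h' => h (snd?_eq_some.1 h'))]
  exact DFunLike.congr_fun h E

/-- the nodal Riemann–Roch space of a residue divisor -/
def RR (E : RDiv A F₁ F₂) : Submodule k (F₁ × F₂) := D.nodal (RDiv.fst E) (RDiv.snd E)

/-- the nodal `ℓ` of a residue divisor -/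
def ellR (E : RDiv A F₁ F₂) : ℕ := Module.finrank k (D.RR E)

theorem ellR_def (E : RDiv A F₁ F₂) : D.ellR E = Module.finrank k (D.RR E) := rfl

/-- **(RED)** -/
theorem red_mem' {E : Divisor L F} (hE : D.SmoothSupp E) {f : F} (hf : f ∈ riemannRochSpace E)
    (h₁ : f ∈ D.nod.V₁.O) (h₂ : f ∈ D.nod.V₂.O) : D.nod.redF f ∈ D.RR (D.push E) := by
  rw [RR, fst_push, snd_push]
  exact D.red_mem E hE f hf h₁ h₂

/-- a point of the special fibre with a nonempty residue disc -/
def Good (q : Pt A F₁ F₂) : Prop := ∃ P, D.r P = some q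

/-- **(LC)** on the first component -/
theorem push_divOf₁ {y : F} (hy : D.nod.V₁.redF y ≠ 0) {Q : Place k F₁} (hQ : D.Good (Sum.inl Q)) :
    D.push (divOf (K := L) y) (Sum.inl Q) = Q.ord (D.nod.V₁.redF y) := by
  obtain ⟨P₀, hP₀⟩ := hQ
  have := D.cons₁ y hy P₀ Q hP₀
  rw [← this, ← RDiv.fst_apply, fst_push]

/-- **(LC)** on the second component -/
theorem push_divOf₂ {y : F} (hy : D.nod.V₂.redF y ≠ 0) {Q : Place k F₂} (hQ : D.Good (Sum.inr Q)) :
    D.push (divOf (K := L) y) (Sum.inr Q) = Q.ord (D.nod.V₂.redF y) := by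
  obtain ⟨P₀, hP₀⟩ := hQ
  have := D.cons₂ y hy P₀ Q hP₀
  rw [← this, ← RDiv.snd_apply, snd_push]

/-- **(LC)** for a function with both reductions nonzero -/
theorem push_divOf {y : F} (hy₁ : D.nod.V₁.redF y ≠ 0) (hy₂ : D.nod.V₂.redF y ≠ 0)
    {q : Pt A F₁ F₂} (hq : D.Good q) : D.push (divOf (K := L) y) q = ordR q (D.nod.redF y) := by
  rcases q with Q | Q
  · exact D.push_divOf₁ hy₁ hq
  · exact D.push_divOf₂ hy₂ hq

theorem deg_r {P : Place L F} {q : Pt A F₁ F₂} (h : D.r P = some q) : degR q = P.deg := by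
  rcases q with Q | Q
  · exact D.deg_r₁ P Q h
  · exact D.deg_r₂ P Q h

end NRedDatum

/-! ### disc-regularity -/

variable [HasPrincipalDivisors (IsLocalRing.ResidueField A) F₁]
  [HasPrincipalDivisors (IsLocalRing.ResidueField A) F₂]

/-- `f` lies in the valuation ring of the component of `q` and is regular on the disc of `q` -/
def NDiscReg (D : NRedDatum A F F₁ F₂) : Pt A F₁ F₂ → F → Prop
  | Sum.inl Q, f => NC.DiscReg D.D₁ Q f
  | Sum.inr Q, f => NC.DiscReg D.D₂ Q f

/-- `t` is a parameter on the disc of `q` -/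
def NIsParamAt (D : NRedDatum A F F₁ F₂) : Pt A F₁ F₂ → F → Prop
  | Sum.inl Q, t => NC.IsParamAt D.D₁ Q t
  | Sum.inr Q, t => NC.IsParamAt D.D₂ Q t

namespace NDiscReg

variable {D : NRedDatum A F F₁ F₂} {q : Pt A F₁ F₂} {f f' : F}

theorem regAt (hf : NDiscReg D q f) {P : Place L F} (hP : D.r P = some q) : RegAt P f := by
  rcases q with Q | Q
  · exact hf.2 P (fst?_eq_some.2 hP)
  · exact hf.2 P (snd?_eq_some.2 hP)

theorem zero : NDiscReg D q (0 : F) := by
  rcases q with Q | Q
  · exact NC.DiscReg.zero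
  · exact NC.DiscReg.zero

theorem one : NDiscReg D q (1 : F) := by
  rcases q with Q | Q
  · exact NC.DiscReg.one
  · exact NC.DiscReg.one

theorem add (hf : NDiscReg D q f) (hf' : NDiscReg D q f') : NDiscReg D q (f + f') := by
  rcases q with Q | Q
  · exact NC.DiscReg.add hf hf'
  · exact NC.DiscReg.add hf hf'

theorem sub (hf : NDiscReg D q f) (hf' : NDiscReg D q f') : NDiscReg D q (f - f') := by
  rcases q with Q | Q
  · exact NC.DiscReg.sub hf hf'
  · exact NC.DiscReg.sub hf hf'

theorem neg (hf : NDiscReg D q f) : NDiscReg D q (-f) := by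
  rcases q with Q | Q
  · exact NC.DiscReg.neg hf
  · exact NC.DiscReg.neg hf

theorem mul (hf : NDiscReg D q f) (hf' : NDiscReg D q f') : NDiscReg D q (f * f') := by
  rcases q with Q | Q
  · exact NC.DiscReg.mul hf hf'
  · exact NC.DiscReg.mul hf hf'

theorem smul (a : A) (hf : NDiscReg D q f) : NDiscReg D q ((a : L) • f) := by
  rcases q with Q | Q
  · exact NC.DiscReg.smul a hf
  · exact NC.DiscReg.smul a hf

theorem sum {ι : Type*} (s : Finset ι) (φ : ι → F) (h : ∀ i ∈ s, NDiscReg D q (φ i)) :
    NDiscReg D q (∑ i ∈ s, φ i) := by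
  rcases q with Q | Q
  · exact NC.DiscReg.sum s φ h
  · exact NC.DiscReg.sum s φ h

/-- the value on the disc is integral -/
theorem ev_mem (hf : NDiscReg D q f) {P : Place L F} (hP : D.r P = some q) (hdeg : P.deg = 1) :
    ev P f ∈ A := by
  rcases q with Q | Q
  · exact NC.DiscReg.ev_mem hf (fst?_eq_some.2 hP) hdeg
  · exact NC.DiscReg.ev_mem hf (snd?_eq_some.2 hP) hdeg

/-- the residue of the value on the disc is the value of the reduction at the centre -/
theorem residue_ev (hf : NDiscReg D q f) {P : Place L F} (hP : D.r P = some q) (hdeg : P.deg = 1) :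
    IsLocalRing.residue A ⟨ev P f, hf.ev_mem hP hdeg⟩ = evR q (D.nod.redF f) := by
  rcases q with Q | Q
  · exact NC.DiscReg.residue_ev hf (fst?_eq_some.2 hP) hdeg
  · exact NC.DiscReg.residue_ev hf (snd?_eq_some.2 hP) hdeg

end NDiscReg

/-- a function of `L(E) ∩ O_i` is regular on a disc where `E` vanishes -/
theorem nDiscReg_of_mem_rr {D : NRedDatum A F F₁ F₂} {E : Divisor L F} {q : Pt A F₁ F₂}
    (hE : ∀ P : Place L F, D.r P = some q → E P = 0) {f : F} (hf : f ∈ riemannRochSpace E)
    (h₁ : f ∈ D.nod.V₁.O) (h₂ : f ∈ D.nod.V₂.O) : NDiscReg D q f := by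
  have key : ∀ P : Place L F, D.r P = some q → RegAt P f := by
    intro P hP
    rcases (mem_riemannRochSpace_iff.1 hf) P with h0 | h
    · rw [h0]; exact regAt_zero
    · rw [regAt_iff_ord]
      rw [hE P hP, neg_zero] at h
      exact h
  rcases q with Q | Q
  · exact ⟨h₁, fun P hP => key P (fst?_eq_some.1 hP)⟩
  · exact ⟨h₂, fun P hP => key P (snd?_eq_some.1 hP)⟩

/-! ### charts -/

/-- a centred parameter on the residue disc of the point `q` of the special fibre -/
structure NChart (D : NRedDatum A F F₁ F₂) (q : Pt A F₁ F₂) where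
  /-- the parameter -/
  t : F
  /-- the centre -/
  P0 : Place L F
  r_P0 : D.r P0 = some q
  param : NIsParamAt D q t
  centred : ev P0 t = 0
  deg_one : ∀ P : Place L F, P.deg = 1

namespace NChart

variable {D : NRedDatum A F F₁ F₂}

/-- the underlying chart of the first component -/
def ch₁ {Q : Place k F₁} (c : NChart D (Sum.inl Q)) : NC.Chart D.D₁ Q where
  t := c.t
  P0 := c.P0
  r_P0 := fst?_eq_some.2 c.r_P0
  param := c.param
  centred := c.centred
  deg_one := c.deg_one

/-- the underlying chart of the second component -/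
def ch₂ {Q : Place k F₂} (c : NChart D (Sum.inr Q)) : NC.Chart D.D₂ Q where
  t := c.t
  P0 := c.P0
  r_P0 := snd?_eq_some.2 c.r_P0
  param := c.param
  centred := c.centred
  deg_one := c.deg_one

/-- a chart of the first component as a chart of the nodal datum -/
def of₁ {Q : Place k F₁} (c : NC.Chart D.D₁ Q) : NChart D (Sum.inl Q) where
  t := c.t
  P0 := c.P0
  r_P0 := fst?_eq_some.1 c.r_P0
  param := c.param
  centred := c.centred
  deg_one := c.deg_one

/-- a chart of the second component as a chart of the nodal datum -/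
def of₂ {Q : Place k F₂} (c : NC.Chart D.D₂ Q) : NChart D (Sum.inr Q) where
  t := c.t
  P0 := c.P0
  r_P0 := snd?_eq_some.1 c.r_P0
  param := c.param
  centred := c.centred
  deg_one := c.deg_one

/-- the point of the disc with parameter value `u` -/
def pt : ∀ {q : Pt A F₁ F₂}, NChart D q → L → Place L F
  | Sum.inl _, c, u => c.ch₁.pt u
  | Sum.inr _, c, u => c.ch₂.pt u

variable {q : Pt A F₁ F₂} (c : NChart D q)

theorem discReg_t : NDiscReg D q c.t := by
  rcases q with Q | Q
  · exact c.param.1
  · exact c.param.1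

theorem valuation_ev_lt_one {P : Place L F} (hP : D.r P = some q) :
    A.valuation (ev P c.t) < 1 := by
  rcases q with Q | Q
  · exact c.ch₁.valuation_ev_lt_one (fst?_eq_some.2 hP)
  · exact c.ch₂.valuation_ev_lt_one (snd?_eq_some.2 hP)

theorem r_pt (u : L) : D.r (c.pt u) = some q := by
  rcases q with Q | Q
  · exact fst?_eq_some.1 (c.ch₁.r_pt u)
  · exact snd?_eq_some.1 (c.ch₂.r_pt u)

theorem ev_pt {u : L} (hu : A.valuation u < 1) : ev (c.pt u) c.t = u := by
  rcases q with Q | Q
  · exact c.ch₁.ev_pt hu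
  · exact c.ch₂.ev_pt hu

theorem pt_ev {P : Place L F} (hP : D.r P = some q) : c.pt (ev P c.t) = P := by
  rcases q with Q | Q
  · exact c.ch₁.pt_ev (fst?_eq_some.2 hP)
  · exact c.ch₂.pt_ev (snd?_eq_some.2 hP)

theorem pt_zero : c.pt 0 = c.P0 := by
  rcases q with Q | Q
  · exact c.ch₁.pt_zero
  · exact c.ch₂.pt_zero

theorem pt_injOn {u u' : L} (hu : A.valuation u < 1) (hu' : A.valuation u' < 1)
    (h : c.pt u = c.pt u') : u = u' := by
  rcases q with Q | Q
  · exact c.ch₁.pt_injOn hu hu' h
  · exact c.ch₂.pt_injOn hu hu' h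

variable {G : Type*} [Group G] (S : NSym D G)

theorem fixP_pt (hFt : S.FixF c.t) {u : L} (hu : A.valuation u < 1)
    (hfix : ∀ g : G, SemilinearAut.baseAut (S.ρ g) u = u) : S.FixP (c.pt u) := by
  rcases q with Q | Q
  · exact c.ch₁.fixP_pt S.S₁ hFt hu hfix
  · exact c.ch₂.fixP_pt S.S₂ hFt hu hfix

theorem smul_pt (hFt : S.FixF c.t) (g : G) {u : L} (hu : A.valuation u < 1) :
    S.ρ g • c.pt u = c.pt (SemilinearAut.baseAut (S.ρ g) u) := by
  rcases q with Q | Q
  · exact c.ch₁.smul_pt S.S₁ hFt g hu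
  · exact c.ch₂.smul_pt S.S₂ hFt g hu

/-- `w ↦ f(pt (w i₀))` is analytic with coefficients in the fixed ring, for fixed data -/
theorem analyticOn_ev_fixed {ι : Type*} (i₀ : ι) {f : F} (hf : NDiscReg D q f)
    (hFt : S.FixF c.t) (hFP : S.FixP c.P0) (hFf : S.FixF f) (ϖ : L) :
    AnalyticOn A S.R ϖ (fun w : ι → L => ev (c.pt (w i₀)) f) := by
  rcases q with Q | Q
  · exact c.ch₁.analyticOn_ev_fixed S.S₁ i₀ hf hFt hFP hFf ϖ
  · exact c.ch₂.analyticOn_ev_fixed S.S₂ i₀ hf hFt hFP hFf ϖ

end NChart

end Fermat.Agent.S33lib.N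

end
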