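/-
S33lib / N / ChartZero (helper4): the Newton application `NAn.analyticOn_ev_zero` for a chart of the
nodal datum (wrapper by cases on the component of the centre), for FIXED data: the Taylor
coefficients then lie in the fixed ring `S.R` (`NC.Chart.coeff_mem_R`).
-/
import Fermat.Agent.S33lib.N.Chart
import Fermat.Agent.S33lib.NAn.Zero

set_option autoImplicit false
set_option linter.unusedSectionVars false

noncomputable section

namespace Fermat.Agent.S33lib.N

open AlgebraicCurve Fermat.Agent.LSb Fermat.Agent.S18lib Fermat.Agent.S19lib.C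
open Fermat.Agent.S19lib (AnalyticOn PolyDisc)

variable {L : Type*} [Field L] {A : ValuationSubring L}
variable {F : Type*} [Field F] [Algebra L F]
variable {F₁ F₂ : Type*} [Field F₁] [Field F₂]
variable [Algebra (IsLocalRing.ResidueField A) F₁] [Algebra (IsLocalRing.ResidueField A) F₂]
variable [HasPrincipalDivisors L F]
variable [HasPrincipalDivisors (IsLocalRing.ResidueField A) F₁]
  [HasPrincipalDivisors (IsLocalRing.ResidueField A) F₂]
variable {G : Type*} [Group G]

local notation "k" => IsLocalRing.ResidueField A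

/-- the fixed ring lies in `A` -/
theorem IAct.R_le_toSubring (S : IAct A F G) : S.R ≤ A.toSubring := fun _ ha => ha.1

/-- the fixed ring is closed under inverses of units of `A` -/
theorem IAct.inv_mem_R (S : IAct A F G) : ∀ r ∈ S.R, A.valuation r = 1 → r⁻¹ ∈ S.R := by
  intro r hr hv
  refine ⟨?_, fun g => ?_⟩
  · apply A.mem_of_valuation_le_one
    rw [map_inv₀, hv, inv_one]
  · rw [map_inv₀, hr.2 g]

variable {D : NRedDatum A F F₁ F₂}

/-- **Newton application on the nodal model.** For a fixed chart `c` at the point `q` of the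
special fibre, fixed disc-regular functions `e j`, analytic coefficients `m j : 𝔪^ι → A` and a zero
`Z w` in the disc of `q` of the section `s_w = ∑ m_j(w) e_j`, simple at `w = 0` on the special
fibre: the coordinate `w ↦ t(Z w)` of the zero is analytic over the fixed ring. -/
theorem NChart.analyticOn_ev_zero {q : Pt A F₁ F₂} (c : NChart D q) (hq : degR q = 1)
    (S : NSym D G) {ϖ : L} (hϖ : A.valuation ϖ < 1)
    (hε : ∀ ε ∈ S.R, A.valuation ε < 1 → A.valuation ε ≤ A.valuation ϖ)
    {ι : Type*} [Finite ι] {n : ℕ} (e : Fin n → F) (he : ∀ j, NDiscReg D q (e j))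
    (hFt : S.FixF c.t) (hFP : S.FixP c.P0) (hFe : ∀ j, S.FixF (e j))
    (m : Fin n → (ι → L) → L) (hm : ∀ j, AnalyticOn A S.R ϖ (m j))
    (Z : (ι → L) → Place L F) (hZr : ∀ w ∈ PolyDisc A ι, D.r (Z w) = some q)
    (hZ : ∀ w ∈ PolyDisc A ι, ∑ j, m j w * ev (Z w) (e j) = 0)
    (hsimple : ordR q (D.nod.redF (∑ j, m j 0 • e j)) = 1) :
    AnalyticOn A S.R ϖ (fun w => ev (Z w) c.t) := by
  rcases q with Q | Q
  · exact NAn.analyticOn_ev_zero c.ch₁ hq S.R S.R_le_toSubring hϖ hε S.inv_mem_R e he
      (fun j i => c.ch₁.coeff_mem_R S.S₁ (he j) hFt hFP (hFe j) i) m hm Z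
      (fun w hw => fst?_eq_some.2 (hZr w hw)) hZ hsimple
  · exact NAn.analyticOn_ev_zero c.ch₂ hq S.R S.R_le_toSubring hϖ hε S.inv_mem_R e he
      (fun j i => c.ch₂.coeff_mem_R S.S₂ (he j) hFt hFP (hFe j) i) m hm Z
      (fun w hw => snd?_eq_some.2 (hZr w hw)) hZ hsimple

end Fermat.Agent.S33lib.N

end
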