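/-
S33lib / N / Minors  (helper8)  — Project LSp, track B: analytic minors over the nodal model

Port of the `families` part of `S19lib/An/Minors` to chart families `NFam` of the nodal reduction
datum: the `2g` points `pts a b w` with coordinates `w = (u, v)`, the matrix of values
`Lam a b e w = (e j (P_r w))`, and the analyticity of its entries and of its signed maximal minors
(`analyticOn_Lam`, `analyticOn_cross_Lam`, via `NChart.analyticOn_ev_fixed` and the generic
`S19lib.An.analyticOn_cross`).  The row bijection `rowEquiv` is the one of `S19lib`.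
-/
import Fermat.Agent.S19lib.An.Minors
import Fermat.Agent.S33lib.N.Family

set_option autoImplicit false
set_option linter.unusedSectionVars false

noncomputable section

namespace Fermat.Agent.S33lib.N

open AlgebraicCurve Fermat.Agent.LSb Fermat.Agent.S18lib Fermat.Agent.S19lib.C
open Fermat.Agent.S19lib (AnalyticOn AnalyticMap PolyDisc)
open Fermat.Agent.S19lib.An (rowEquiv analyticOn_cross cross_mem)

variable {L : Type*} [Field L] {A : ValuationSubring L}
variable {F : Type*} [Field F] [Algebra L F]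
variable {F₁ F₂ : Type*} [Field F₁] [Field F₂]
variable [Algebra (IsLocalRing.ResidueField A) F₁] [Algebra (IsLocalRing.ResidueField A) F₂]
variable [HasPrincipalDivisors L F]
variable [HasPrincipalDivisors (IsLocalRing.ResidueField A) F₁]
  [HasPrincipalDivisors (IsLocalRing.ResidueField A) F₂]
variable {G : Type*} [Group G]
variable {D : NRedDatum A F F₁ F₂} {S : NSym D G} {g : ℕ}

/-- the `2g` points with coordinates `w = (u, v)` -/
def pts (a b : NFam D S g) (w : Fin g ⊕ Fin g → L) : Fin g ⊕ Fin g → Place L F :=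
  Sum.elim (fun i => (a.ch i).pt (w (Sum.inl i))) (fun i => (b.ch i).pt (w (Sum.inr i)))

@[simp] theorem pts_inl (a b : NFam D S g) (w : Fin g ⊕ Fin g → L) (i : Fin g) :
    pts a b w (Sum.inl i) = (a.ch i).pt (w (Sum.inl i)) := rfl

@[simp] theorem pts_inr (a b : NFam D S g) (w : Fin g ⊕ Fin g → L) (i : Fin g) :
    pts a b w (Sum.inr i) = (b.ch i).pt (w (Sum.inr i)) := rfl

/-- the matrix of values of the functions `e j` at the `2g` points -/
def Lam (a b : NFam D S g) {n : ℕ} (e : Fin n → F) (w : Fin g ⊕ Fin g → L) :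
    Matrix (Fin (2 * g)) (Fin n) L :=
  fun r j => ev (pts a b w (rowEquiv g r)) (e j)

theorem Lam_apply (a b : NFam D S g) {n : ℕ} (e : Fin n → F) (w : Fin g ⊕ Fin g → L)
    (r : Fin (2 * g)) (j : Fin n) : Lam a b e w r j = ev (pts a b w (rowEquiv g r)) (e j) := rfl

theorem analyticOn_Lam (a b : NFam D S g) {n : ℕ} (e : Fin n → F)
    (hea : ∀ i j, NDiscReg D (a.Qb i) (e j)) (heb : ∀ i j, NDiscReg D (b.Qb i) (e j))
    (hfix : ∀ j, S.FixF (e j)) (ϖ : L) (r : Fin (2 * g)) (j : Fin n) :
    AnalyticOn A S.R ϖ (fun w => Lam a b e w r j) := by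
  unfold Lam
  cases h : rowEquiv g r with
  | inl i =>
    have := (a.ch i).analyticOn_ev_fixed S (ι := Fin g ⊕ Fin g) (Sum.inl i) (hea i j)
      (a.fixT i) (a.fixP i) (hfix j) ϖ
    simpa [pts, h] using this
  | inr i =>
    have := (b.ch i).analyticOn_ev_fixed S (ι := Fin g ⊕ Fin g) (Sum.inr i) (heb i j)
      (b.fixT i) (b.fixP i) (hfix j) ϖ
    simpa [pts, h] using this

/-- **(P3)**: the signed maximal minors of the value matrix are analytic in `w = (u, v)`. -/
theorem analyticOn_cross_Lam (hR : S.R ≤ A.toSubring) {ϖ : L} (hϖ : ϖ ∈ A)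
    (a b : NFam D S g) (e : Fin (2 * g + 1) → F)
    (hea : ∀ i j, NDiscReg D (a.Qb i) (e j)) (heb : ∀ i j, NDiscReg D (b.Qb i) (e j))
    (hfix : ∀ j, S.FixF (e j)) (j : Fin (2 * g + 1)) :
    AnalyticOn A S.R ϖ (fun w => cross (Lam a b e w) j) :=
  analyticOn_cross A S.R hR hϖ (fun w => Lam a b e w)
    (fun r j' => analyticOn_Lam a b e hea heb hfix ϖ r j') j

/-- the values of the analytic minors lie in `A` -/
theorem cross_Lam_mem (hR : S.R ≤ A.toSubring) {ϖ : L} (hϖ : ϖ ∈ A)
    (a b : NFam D S g) (e : Fin (2 * g + 1) → F)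
    (hea : ∀ i j, NDiscReg D (a.Qb i) (e j)) (heb : ∀ i j, NDiscReg D (b.Qb i) (e j))
    (hfix : ∀ j, S.FixF (e j)) (j : Fin (2 * g + 1)) {w : Fin g ⊕ Fin g → L}
    (hw : w ∈ PolyDisc A (Fin g ⊕ Fin g)) : cross (Lam a b e w) j ∈ A :=
  cross_mem A S.R hR hϖ (fun w => Lam a b e w)
    (fun r j' => analyticOn_Lam a b e hea heb hfix ϖ r j') j hw

end Fermat.Agent.S33lib.N

end
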