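/-
S33lib / N / SimpleZero (helper4): nodal port of `S19lib/An/SimpleZero` + `S19lib/H2/SimpleZero`.

For a configuration `T : NTri a b c` the determinant section
`sec w = ∑ j, cross (Lam a b T.e w) j • T.e j` reduces (on BOTH components) to a NONZERO multiple of
`s̄₀ = red s₀`; `s̄₀` has a simple zero at every centre of the third family (local conservation on
the component of the centre).  Hence `sec 0` has a simple zero there: this is the hypothesis
`hsimple` of `NChart.analyticOn_ev_zero`.
-/
import Fermat.Agent.S33lib.N.Minors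
import Fermat.Agent.S33lib.NAn.CrossNodal
import Fermat.Agent.S19lib.H2.SimpleZero

set_option autoImplicit false
set_option linter.unusedSectionVars false

noncomputable section

namespace Fermat.Agent.S33lib.N

open AlgebraicCurve Module Fermat.Agent.LSb Fermat.Agent.S18lib Fermat.Agent.S19lib.C
open Fermat.Agent.S19lib.An (rowEquiv)

variable {L : Type*} [Field L] {A : ValuationSubring L}
variable {F : Type*} [Field F] [Algebra L F]
variable {F₁ F₂ : Type*} [Field F₁] [Field F₂]
variable [Algebra (IsLocalRing.ResidueField A) F₁] [Algebra (IsLocalRing.ResidueField A) F₂]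
variable [HasPrincipalDivisors L F]
variable [HasPrincipalDivisors (IsLocalRing.ResidueField A) F₁]
  [HasPrincipalDivisors (IsLocalRing.ResidueField A) F₂]
variable {G : Type*} [Group G]

local notation "k" => IsLocalRing.ResidueField A

/-! ### residue divisors of families of points -/

theorem evPt_eq_evR (q : Pt A F₁ F₂) (φ : F₁ × F₂) : NAn.evPt q φ = evR q φ := by
  rcases q with Q | Q <;> rfl

theorem sumL_eq_fst {ι : Type*} [Fintype ι] (Qs : ι → Pt A F₁ F₂) :
    NAn.sumL Qs = RDiv.fst (∑ r, ptR (Qs r)) := by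
  rw [map_sum, NAn.sumL]
  refine Finset.sum_congr rfl fun r _ => ?_
  rcases Qs r with Q | Q
  · rw [Sum.elim_inl, RDiv.fst_single_inl]
  · rw [Sum.elim_inr, RDiv.fst_single_inr]

theorem sumR_eq_snd {ι : Type*} [Fintype ι] (Qs : ι → Pt A F₁ F₂) :
    NAn.sumR Qs = RDiv.snd (∑ r, ptR (Qs r)) := by
  rw [map_sum, NAn.sumR]
  refine Finset.sum_congr rfl fun r _ => ?_
  rcases Qs r with Q | Q
  · rw [Sum.elim_inl, RDiv.snd_single_inl]
  · rw [Sum.elim_inr, RDiv.snd_single_inr]

/-- the order of a nonzero constant multiple -/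
theorem ordR_smul (q : Pt A F₁ F₂) {lam : k} (hlam : lam ≠ 0) {φ : F₁ × F₂} (h₁ : φ.1 ≠ 0)
    (h₂ : φ.2 ≠ 0) : ordR q (lam • φ) = ordR q φ := by
  rcases q with Q | Q
  · show Q.ord (lam • φ.1) = Q.ord φ.1
    rw [Algebra.smul_def, Place.ord_mul Q
      ((map_ne_zero_iff _ (algebraMap k F₁).injective).2 hlam) h₁,
      ord_algebraMap_eq_zero Q hlam, zero_add]
  · show Q.ord (lam • φ.2) = Q.ord φ.2
    rw [Algebra.smul_def, Place.ord_mul Q
      ((map_ne_zero_iff _ (algebraMap k F₂).injective).2 hlam) h₂,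
      ord_algebraMap_eq_zero Q hlam, zero_add]

variable {D : NRedDatum A F F₁ F₂} {S : NSym D G} {g : ℕ}

/-! ### the `2g` centres -/

/-- the `2g` centres on the special fibre, indexed like the points `pts` -/
def ctr (a b : NFam D S g) : Fin g ⊕ Fin g → Pt A F₁ F₂ := Sum.elim a.Qb b.Qb

theorem r_pts (a b : NFam D S g) (w : Fin g ⊕ Fin g → L) (s : Fin g ⊕ Fin g) :
    D.r (pts a b w s) = some (ctr a b s) := by
  rcases s with i | i
  · exact (a.ch i).r_pt _
  · exact (b.ch i).r_pt _

theorem ctr_injective (a b : NFam D S g) (hab : a.Disjoint b) :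
    Function.Injective (ctr a b) := by
  intro s s' h
  rcases s with i | i <;> rcases s' with j | j
  · rw [a.inj h]
  · exact absurd h (hab i j)
  · exact absurd h.symm (hab j i)
  · rw [b.inj h]

theorem degR_ctr (a b : NFam D S g) (s : Fin g ⊕ Fin g) : degR (ctr a b s) = 1 := by
  rw [D.deg_r (r_pts a b 0 s), a.deg_one]

/-- the sum of the `2g` centres is `Ē_a + Ē_b` -/
theorem sum_ctr (a b : NFam D S g) :
    ∑ r : Fin (2 * g), ptR (ctr a b (rowEquiv g r)) = a.Eb + b.Eb := by
  rw [Equiv.sum_comp (rowEquiv g) (fun s => ptR (ctr a b s)), Fintype.sum_sum_type]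
  rfl

variable {a b c : NFam D S g}

/-- the functions `T.e j` are regular on the discs of the `2g` centres -/
theorem discReg_e_ctr (T : NTri a b c) (s : Fin g ⊕ Fin g) (j : Fin (2 * g + 1)) :
    NDiscReg D (ctr a b s) (T.e j) := by
  rcases s with i | i
  · exact T.discReg_e_a i j
  · exact T.discReg_e_b i j

/-- the reduced divisor `r_* B` is trivial at the `2g` centres -/
theorem push_Bd_ctr (T : NTri a b c) (s : Fin g ⊕ Fin g) : D.push T.Bd (ctr a b s) = 0 := by
  rw [D.push_apply]
  rcases s with i | i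
  · exact Fermat.Agent.S19lib.H2.mapDomain_apply_eq_zero_of_disc D.r T.Bd _
      (fun P hP => T.B_disc_a P i hP)
  · exact Fermat.Agent.S19lib.H2.mapDomain_apply_eq_zero_of_disc D.r T.Bd _
      (fun P hP => T.B_disc_b P i hP)

/-- the entries of `Lam a b T.e w` are integral -/
theorem Lam_mem (T : NTri a b c) (w : Fin g ⊕ Fin g → L) (r : Fin (2 * g))
    (j : Fin (2 * g + 1)) : Lam a b T.e w r j ∈ A :=
  (discReg_e_ctr T (rowEquiv g r) j).ev_mem (r_pts a b w _) (a.deg_one _)

/-- the residues of the entries of `Lam a b T.e w` -/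
theorem residue_Lam (T : NTri a b c) (w : Fin g ⊕ Fin g → L) (r : Fin (2 * g))
    (j : Fin (2 * g + 1)) :
    IsLocalRing.residue A ⟨Lam a b T.e w r j, Lam_mem T w r j⟩
      = evR (ctr a b (rowEquiv g r)) (D.nod.redF (T.e j)) :=
  (discReg_e_ctr T (rowEquiv g r) j).residue_ev (r_pts a b w _) (a.deg_one _)

/-- **reduction of the determinant section**: for every `w`, the reduction of
`∑ j, cross (Lam a b T.e w) j • T.e j` is a nonzero multiple of `s̄₀` -/
theorem exists_redF_sec_eq_smul (hab : a.Disjoint b) (T : NTri a b c)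
    (w : Fin g ⊕ Fin g → L) :
    ∃ lam : k, lam ≠ 0 ∧
      D.nod.redF (∑ j, cross (Lam a b T.e w) j • T.e j) = lam • D.nod.redF T.s0 := by
  -- the matrix over `A`
  set ΛA : Matrix (Fin (2 * g)) (Fin (2 * g + 1)) A :=
    fun r j => ⟨Lam a b T.e w r j, Lam_mem T w r j⟩ with hΛA
  have hmap : Lam a b T.e w = ΛA.map A.subtype := by
    ext r j
    rfl
  have hcr : ∀ j, cross (Lam a b T.e w) j = ((cross ΛA j : A) : L) := fun j => by
    rw [hmap, cross_map]
    rfl
  -- the matrix over `k`
  have hres : ΛA.map (IsLocalRing.residue A)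
      = Matrix.of fun r j => NAn.evPt (ctr a b (rowEquiv g r)) (D.nod.redF (T.e j)) := by
    ext r j
    rw [Matrix.of_apply, evPt_eq_evR]
    exact residue_Lam T w r j
  -- reduction of the section
  have hred : D.nod.redF (∑ j, cross (Lam a b T.e w) j • T.e j)
      = ∑ j, cross (Matrix.of fun r j =>
          NAn.evPt (ctr a b (rowEquiv g r)) (D.nod.redF (T.e j))) j • D.nod.redF (T.e j) := by
    have h1 : ∑ j, cross (Lam a b T.e w) j • T.e j
        = ∑ j, algebraMap L F ((cross ΛA j : A) : L) * T.e j :=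
      Finset.sum_congr rfl fun j _ => by rw [hcr j, Algebra.smul_def]
    rw [h1]
    refine (Frame.IsOrthonormalS.redS_sum T.e_orth (cross ΛA)).trans ?_
    refine Finset.sum_congr rfl fun j _ => ?_
    rw [← hres, cross_map]
  rw [hred]
  -- the statement on the nodal curve
  have hdeg : ∀ r : Fin (2 * g), degR (ctr a b (rowEquiv g r)) = 1 := fun r => degR_ctr a b _
  have hB : ∀ r : Fin (2 * g), D.push T.Bd (ctr a b (rowEquiv g r)) = 0 :=
    fun r => push_Bd_ctr T _
  refine NAn.exists_cross_section_eq_smul_nodal (x₁ := D.nod.x₁) (x₂ := D.nod.x₂) (lam := 1)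
    (B₁ := RDiv.fst (D.push T.Bd)) (B₂ := RDiv.snd (D.push T.Bd))
    (fun j => D.nod.redF (T.e j)) T.e_orth.2 T.eb_span (fun r => ctr a b (rowEquiv g r))
    (fun r r' h => (rowEquiv g).injective (ctr_injective a b hab h)) ?_ ?_ ?_ ?_ ?_
  · intro r v hr
    have := hdeg r
    rwa [hr] at this
  · intro r v hr
    have := hdeg r
    rwa [hr] at this
  · intro r v hr
    have := hB r
    rwa [hr] at this
  · intro r v hr
    have := hB r
    rwa [hr] at this
  · rw [sumL_eq_fst, sumR_eq_snd, sum_ctr a b, ← map_sub, ← map_sub, ← sub_sub]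
    exact T.rr_ab

/-! ### the simple zero of `s̄₀` -/

/-- `div s₀ = E_a + E_b + E_c - B` -/
theorem divOf_s0 (T : NTri a b c) : divOf (K := L) T.s0 = a.E + b.E + c.E - T.Bd := by
  ext P
  rw [divOf_apply T.s0_ne, Finsupp.sub_apply, ← T.ord_s0 P]
  ring

/-- the reduced base divisor of a family at a point outside the family -/
theorem Eb_apply_eq_zero (a : NFam D S g) (q : Pt A F₁ F₂) (h : ∀ j, a.Qb j ≠ q) :
    a.Eb q = 0 := by
  classical
  rw [NFam.Eb, Finsupp.finsetSum_apply]
  refine Finset.sum_eq_zero fun j _ => ?_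
  rw [Finsupp.single_apply, if_neg (h j)]

/-- the reduced base divisor of a family at one of its own centres -/
theorem Eb_apply_self (a : NFam D S g) (i : Fin g) : a.Eb (a.Qb i) = 1 := by
  classical
  rw [NFam.Eb, Finsupp.finsetSum_apply, Finset.sum_eq_single i]
  · rw [Finsupp.single_apply, if_pos rfl]
  · intro j _ hj
    rw [Finsupp.single_apply, if_neg (fun h => hj (a.inj h))]
  · intro h
    exact absurd (Finset.mem_univ i) h

/-- **simple zero**: the reduced section `s̄₀` vanishes to order exactly one at every centre of the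
third family. -/
theorem ord_redF_s0_eq_one (T : NTri a b c) (hac : a.Disjoint c) (hbc : b.Disjoint c)
    (i : Fin g) : ordR (c.Qb i) (D.nod.redF T.s0) = 1 := by
  have hgood : D.Good (c.Qb i) := ⟨(c.ch i).P0, (c.ch i).r_P0⟩
  rw [← D.push_divOf T.red_s0_ne₁ T.red_s0_ne₂ hgood, divOf_s0 T, map_sub, map_add, map_add,
    a.push_E, b.push_E, c.push_E, Finsupp.sub_apply, Finsupp.add_apply, Finsupp.add_apply,
    Eb_apply_eq_zero a (c.Qb i) (fun j => hac j i), Eb_apply_eq_zero b (c.Qb i) (fun j => hbc j i),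
    Eb_apply_self c i, D.push_apply,
    Fermat.Agent.S19lib.H2.mapDomain_apply_eq_zero_of_disc D.r T.Bd _
      (fun P hP => T.B_disc_c P i hP)]
  ring

/-- the same at the centres of the first family (rotate the configuration) -/
theorem ord_redF_s0_eq_one_a (T : NTri a b c) (hab : a.Disjoint b) (hac : a.Disjoint c)
    (i : Fin g) : ordR (a.Qb i) (D.nod.redF T.s0) = 1 :=
  ord_redF_s0_eq_one T.rotate (fun j l h => hab l j h.symm) (fun j l h => hac l j h.symm) i

/-- the same at the centres of the second family -/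
theorem ord_redF_s0_eq_one_b (T : NTri a b c) (hab : a.Disjoint b) (hbc : b.Disjoint c)
    (i : Fin g) : ordR (b.Qb i) (D.nod.redF T.s0) = 1 :=
  ord_redF_s0_eq_one T.rotate.rotate (fun j l h => hbc l j h.symm) hab i

/-- **(Q2), simple zero**: the reduction of the determinant section vanishes to order exactly one
at every centre of the third family, for every `w` -/
theorem ord_redF_sec (hab : a.Disjoint b) (hbc : b.Disjoint c) (hca : c.Disjoint a)
    (T : NTri a b c) (w : Fin g ⊕ Fin g → L) (i : Fin g) :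
    ordR (c.Qb i) (D.nod.redF (∑ j, cross (Lam a b T.e w) j • T.e j)) = 1 := by
  obtain ⟨lam, hlam, h⟩ := exists_redF_sec_eq_smul hab T w
  rw [h, ordR_smul (c.Qb i) hlam T.red_s0_ne₁ T.red_s0_ne₂]
  exact ord_redF_s0_eq_one T (fun j l h => hca l j h.symm) hbc i

/-- the same at `w = 0` -/
theorem ord_redF_sec_zero (hab : a.Disjoint b) (hbc : b.Disjoint c) (hca : c.Disjoint a)
    (T : NTri a b c) (i : Fin g) :
    ordR (c.Qb i) (D.nod.redF (∑ j, cross (Lam a b T.e 0) j • T.e j)) = 1 :=
  ord_redF_sec hab hbc hca T 0 i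

end Fermat.Agent.S33lib.N

end
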