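/-
S33lib / N / Solve  (helper9)  — Project LSp, track B, block ND: the solving statement

Port of `S19lib/D/Solve` + `D/SolveFinal` + `D/Tri` to the nodal model.  For a configuration
`T : NTri a b c` on three pairwise disjoint families the solution map `NB.NTriSolve.tau T C` of the
trilinear relation (`NB/TriSolve`: existence and uniqueness of the algebraic solution) is analytic
with coefficients in the fixed ring `S.R`: Newton application on the chart of each centre of `c`
(`NChart.analyticOn_ev_zero`, helper4) to the determinant section (`N/Minors`, `N/Sec`, helper8),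
whose reduction at `w = 0` has a simple zero at the centre (`ord_redF_sec_zero`, helper4).

* `analyticMap_tau` : `AnalyticMap A S.R ϖ (tau T C)`;
* `nSolve`          : the analytic solution `NSolve a b c ϖ` of a configuration;
* `nExistsTriStmt_of` : **(X)** `NExistsTriStmt D S g ϖ` from the existence of configurations.
-/
import Fermat.Agent.S33lib.N.Sec
import Fermat.Agent.S33lib.N.ChartZero
import Fermat.Agent.S33lib.N.SimpleZero
import Fermat.Agent.S33lib.NB.TriSolve

set_option autoImplicit false
set_option linter.unusedSectionVars false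

noncomputable section

namespace Fermat.Agent.S33lib.N

open AlgebraicCurve Module Fermat.Agent.LSb Fermat.Agent.S18lib Fermat.Agent.S19lib.C
open Fermat.Agent.S19lib (AnalyticOn AnalyticMap PolyDisc)
open Fermat.Agent.S33lib.NB.NTriSolve

variable {L : Type*} [Field L] {A : ValuationSubring L}
variable {F : Type*} [Field F] [Algebra L F]
variable {F₁ F₂ : Type*} [Field F₁] [Field F₂]
variable [Algebra (IsLocalRing.ResidueField A) F₁] [Algebra (IsLocalRing.ResidueField A) F₂]
variable [HasPrincipalDivisors L F]
variable [HasPrincipalDivisors (IsLocalRing.ResidueField A) F₁]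
  [HasPrincipalDivisors (IsLocalRing.ResidueField A) F₂]
variable {G : Type*} [Group G]
variable {D : NRedDatum A F F₁ F₂} {S : NSym D G} {g g₁ g₂ : ℕ}

local notation "k" => IsLocalRing.ResidueField A

/-! ### analyticity of the solution map -/

section Solve

variable {a b c : NFam D S g} (T : NTri a b c) (C : NodalCtx D.nod g g₁ g₂)

/-- **the solution map of the trilinear relation is analytic** -/
theorem analyticMap_tau {ϖ : L} (hϖ : A.valuation ϖ < 1)
    (hε : ∀ ε ∈ S.R, A.valuation ε < 1 → A.valuation ε ≤ A.valuation ϖ)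
    (hab : a.Disjoint b) (hbc : b.Disjoint c) (hca : c.Disjoint a) :
    AnalyticMap A S.R ϖ (tau T C) := by
  classical
  have hϖA : ϖ ∈ A := A.mem_of_valuation_le_one _ hϖ.le
  have hac : a.Disjoint c := fun i j h => hca j i h.symm
  intro i
  have hq : degR (c.Qb i) = 1 := by
    rcases c.Qb i with Q | Q
    · exact C.hF₁.deg_eq_one Q
    · exact C.hF₂.deg_eq_one Q
  have hmain := NChart.analyticOn_ev_zero (c.ch i) hq S hϖ hε T.e
    (fun j => T.discReg_e_c i j) (c.fixT i) (c.fixP i) T.e_fix
    (fun j w => cross (Lam a b T.e w) j)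
    (fun j => analyticOn_cross_Lam S.R_le_toSubring hϖA a b T.e
      (fun i' j' => T.discReg_e_a i' j') (fun i' j' => T.discReg_e_b i' j') T.e_fix j)
    (fun w => (c.ch i).pt (tau T C w i)) (fun w _ => (c.ch i).r_pt _)
    (fun w _ => ?_) (ord_redF_sec_zero hab hbc hca T i)
  · refine hmain.congr A fun w _ => ?_
    exact (c.ch i).ev_pt (tau_mem T C w i)
  · -- the determinant section vanishes at the `i`-th point of `c.Dv (τ w)`
    obtain ⟨s, hsE, -, -, hsred⟩ :=
      exists_section T C (fun i => w (Sum.inl i)) (fun i => w (Sum.inr i))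
    have hs0 : s ≠ 0 := by
      rintro rfl
      exact redF_s0_ne T (by rw [← hsred]; exact Frame.redS_zero)
    have hZr : D.r ((c.ch i).pt (tau T C w i)) = some (c.Qb i) := (c.ch i).r_pt _
    refine TriSec.sum_cross_mul_ev_eq_zero T C hab w (s := s) hsE hs0
      (fun j => (T.discReg_e_c i j).regAt hZr) (Or.inr ?_)
    rw [ord_of_r_eq_c T C hac hbc w hsE hs0 hZr, if_pos rfl]
    exact one_pos

/-- **the analytic solution** of the trilinear relation of a configuration -/
def nSolve {ϖ : L} (hϖ : A.valuation ϖ < 1)
    (hε : ∀ ε ∈ S.R, A.valuation ε < 1 → A.valuation ε ≤ A.valuation ϖ)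
    (hab : a.Disjoint b) (hbc : b.Disjoint c) (hca : c.Disjoint a) : NSolve a b c ϖ :=
  solveOfAnalytic T C (analyticMap_tau T C hϖ hε hab hbc hca)

end Solve

/-! ### the triple statement -/

/-- **(X)** from the existence of configurations: two disjoint admissible families are completed by
a third one to a configuration whose trilinear relation is analytically solvable in each of the
three variables. -/
theorem nExistsTriStmt_of (C : NLiftCtx D S g g₁ g₂) {ϖ : L} (hϖ : A.valuation ϖ < 1)
    (hε : ∀ ε ∈ S.R, A.valuation ε < 1 → A.valuation ε ≤ A.valuation ϖ)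
    (hT : ∀ a b : NFam D S g, a.Disjoint b → ∀ T : Finset (Pt A F₁ F₂),
      ∃ c : NFam D S g, a.Disjoint c ∧ b.Disjoint c ∧ c.Avoids T ∧ Nonempty (NTri a b c)) :
    NExistsTriStmt D S g ϖ := by
  intro a b hab T
  obtain ⟨c, hac, hbc, hcT, ⟨Td⟩⟩ := hT a b hab T
  have hca : c.Disjoint a := fun i j h => hac j i h.symm
  exact ⟨c, hac, hbc, hcT, ⟨nSolve Td C.ctx hϖ hε hab hbc hca⟩,
    ⟨nSolve Td.rotate C.ctx hϖ hε hbc hca hab⟩,
    ⟨nSolve Td.rotate.rotate C.ctx hϖ hε hca hab hbc⟩⟩

end Fermat.Agent.S33lib.N

end
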