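/-
S33lib / N / Final  (helper3)  — Project LSp, Track B: the final assembly

* `R_eq_of` : the fixed ring of an inertia symmetry datum acting through `arithmeticGalois` is `A0 A`;
* `nonempty_nModInst` : the nodal package `NModInst N p A` from the instance contract
  `NInst.HasNRedInstance N A` (helper1) and the two existence statements of block NB
  (`NFamOfCtx` : admissible families exist — helper5's Lift; `NTriOfCtx` : configurations exist —
  helper7's TriExists), through `NB.nKerStmt_of` (helper9) and `nExistsTriStmt_of` (helper9);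
* `geomPStmtDirect_of` : `GeomPStmtDirect` from these two statements.
-/
import Fermat.Agent.S33lib.N.Main
import Fermat.Agent.S33lib.N.Solve
import Fermat.Agent.S33lib.NB.Ker
import Fermat.Agent.S33lib.NInst.Inst

set_option autoImplicit false
set_option linter.unusedSectionVars false

noncomputable section

namespace Fermat.Agent.S33lib.N

open AlgebraicCurve ModularCurve Fermat.Agent.LSb Fermat.Agent.S18lib Fermat.Agent.S19lib

local notation "Qb" => AlgebraicClosure ℚ
local notation "GQ" => (AlgebraicClosure ℚ ≃ₐ[ℚ] AlgebraicClosure ℚ)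

/-- **NB, families**: in every lifting context admissible families exist away from any finite set
(universe-monomorphic form: the modular instances live in `Type`) -/
def NFamOfCtx : Prop :=
  ∀ (A : ValuationSubring Qb) (F : Type) [Field F] [Algebra Qb F] (F₁ F₂ : Type) [Field F₁] [Field F₂]
    [Algebra (IsLocalRing.ResidueField A) F₁] [Algebra (IsLocalRing.ResidueField A) F₂]
    [HasPrincipalDivisors Qb F] [HasPrincipalDivisors (IsLocalRing.ResidueField A) F₁]
    [HasPrincipalDivisors (IsLocalRing.ResidueField A) F₂] (G : Type) [Group G]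
    (D : NRedDatum A F F₁ F₂) (S : NSym D G) (g g₁ g₂ : ℕ),
    NLiftCtx D S g g₁ g₂ → NExistsFamStmt D S g

/-- **NB, configurations**: in every lifting context two disjoint admissible families are completed
by a third one, away from any finite set, to a configuration -/
def NTriOfCtx : Prop :=
  ∀ (A : ValuationSubring Qb) (F : Type) [Field F] [Algebra Qb F] (F₁ F₂ : Type) [Field F₁] [Field F₂]
    [Algebra (IsLocalRing.ResidueField A) F₁] [Algebra (IsLocalRing.ResidueField A) F₂]
    [HasPrincipalDivisors Qb F] [HasPrincipalDivisors (IsLocalRing.ResidueField A) F₁]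
    [HasPrincipalDivisors (IsLocalRing.ResidueField A) F₂] (G : Type) [Group G]
    (D : NRedDatum A F F₁ F₂) (S : NSym D G) (g g₁ g₂ : ℕ),
    NLiftCtx D S g g₁ g₂ → ∀ a b : NFam D S g, a.Disjoint b → ∀ T : Finset (Pt A F₁ F₂),
      ∃ c : NFam D S g, a.Disjoint c ∧ b.Disjoint c ∧ c.Avoids T ∧ Nonempty (NTri a b c)

/-- the fixed ring of an inertia symmetry datum acting through `arithmeticGalois` is `A0 A` -/
theorem R_eq_of {N : ℕ} [NeZero N] {A : ValuationSubring Qb} (S : IAct A (FBar N) ↥(IA A))
    (ρ_eq : ∀ h : ↥(IA A), S.ρ h = arithmeticGalois (modularFunctionFieldFull N) (h : GQ)) :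
    S.R = A0 A := by
  have hat_apply : ∀ (h : ↥(IA A)) (x : Qb), SemilinearAut.baseAut (S.ρ h) x = (h : GQ) x := by
    intro h x
    rw [ρ_eq]
    rfl
  ext a
  constructor
  · rintro ⟨haA, hfix⟩
    refine ⟨haA, fun σ hσ => ?_⟩
    have := hfix ⟨σ, hσ⟩
    rwa [hat_apply] at this
  · rintro ⟨haA, hfix⟩
    refine ⟨haA, fun h => ?_⟩
    rw [hat_apply]
    exact hfix _ h.2

/-- **the nodal package from the instance contract** -/
theorem nonempty_nModInst (hFam : NFamOfCtx) (hTri : NTriOfCtx) {N : ℕ} [NeZero N] {p : ℕ}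
    [Fact p.Prime] {A : ValuationSubring Qb} (hA : A.LiesOverPrime p)
    (H : NInst.HasNRedInstance N A) : Nonempty (NModInst N p A) := by
  obtain ⟨F₁, F₂, i₁, i₂, i₃, i₄, hpd, hpd₁, hpd₂, D, g, g₁, g₂, S, hρ, hI, C⟩ := H
  have hR : S.R = A0 A := R_eq_of S.toIAct hρ
  have hϖ : A.valuation ((p : ℕ) : Qb) < 1 := (A.mem_nonunits_iff).mp hA
  have hε : ∀ ε ∈ S.R, A.valuation ε < 1 → A.valuation ε ≤ A.valuation ((p : ℕ) : Qb) := by
    intro ε hε hlt
    rw [hR] at hε
    exact Fermat.Agent.S19lib.D.valuation_le_of_mem_A0 Fact.out A hA hε hlt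
  exact ⟨{ F₁ := F₁
           F₂ := F₂
           fld₁ := i₁
           fld₂ := i₂
           alg₁ := i₃
           alg₂ := i₄
           g := g
           g₁ := g₁
           g₂ := g₂
           hpd := hpd
           hpd₁ := hpd₁
           hpd₂ := hpd₂
           D := D
           ctx := C.ctx
           inertial := hI
           S := S
           ρ_eq := hρ
           famS := hFam A (FBar N) F₁ F₂ _ D S g g₁ g₂ C
           triS := nExistsTriStmt_of C hϖ hε (hTri A (FBar N) F₁ F₂ _ D S g g₁ g₂ C)
           kerS := NB.nKerStmt_of C.ctx }⟩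

/-- the arithmetic of the level: `N = M * p` with `p ∤ M` and `(M, p)` a good pair -/
theorem exists_goodPair {N p : ℕ} (hN : N ≠ 0) (hp : p.Prime) (hp2 : p ≠ 2) (hpN : p ∣ N)
    (hp2N : ¬ p ^ 2 ∣ N) (h3 : p = 3 → 4 ∣ N) :
    ∃ M, N = M * p ∧ 0 < M ∧ ¬ p ∣ M ∧ GoodPair M p := by
  obtain ⟨M, rfl⟩ := hpN
  have hM : 0 < M := Nat.pos_of_ne_zero fun h => hN (by rw [h, mul_zero])
  have hpM : ¬ p ∣ M := fun ⟨M', hM'⟩ => hp2N ⟨M', by rw [hM']; ring⟩
  refine ⟨M, mul_comm p M, hM, hpM, ?_⟩
  by_cases h5 : 5 ≤ p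
  · exact Or.inl h5
  · have hp3 : p = 3 := by
      have h2 := hp.two_le
      have : p ≠ 4 := fun h => by rw [h] at hp; exact absurd hp (by decide)
      omega
    refine Or.inr (Or.inr ⟨hp3, ?_⟩)
    have h4 := h3 hp3
    rw [hp3] at h4
    exact (Nat.Coprime.dvd_mul_left (by decide : Nat.Coprime 4 3)).1 h4

/-- **`GeomPStmtDirect`** from the two existence statements of block NB -/
theorem geomPStmtDirect_of (hFam : NFamOfCtx) (hTri : NTriOfCtx) : GeomPStmtDirect :=
  geomPStmtDirect_of_nModInst fun N _ p hp hp2 hpN hp2N h3 A hA => by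
    haveI : Fact p.Prime := ⟨hp⟩
    obtain ⟨M, hNM, hM, hpM, hgood⟩ := exists_goodPair (NeZero.ne N) hp hp2 hpN hp2N h3
    subst hNM
    exact nonempty_nModInst hFam hTri hA (NInst.hasNRedInstance hM hp hpM hgood A hA)

end Fermat.Agent.S33lib.N

end
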