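/-
S33lib / N / Geom  (helper3)   — Project LSp, track B: the closed geometric statement.

* `liftExports_of` : the three exports of `NB/Lift` (helper5) packaged for `NB/TriExists` (helper7);
* `nFamOfCtx_holds` : `NFamOfCtx` (helper5's `NB.nExistsFamStmt`);
* `nTriOfCtx_holds` : `NTriOfCtx` (helper7's `NB.exists_nTri_of`);
* **`geomPStmtDirect_holds`** : `GeomPStmtDirect`.
-/
import Fermat.Agent.S33lib.N.Final
import Fermat.Agent.S33lib.NB.Lift
import Fermat.Agent.S33lib.NB.TriExists

set_option autoImplicit false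
set_option linter.unusedSectionVars false

noncomputable section

namespace Fermat.Agent.S33lib.N

open AlgebraicCurve Fermat.Agent.LSb Fermat.Agent.S18lib

/-- the three exports of `NB/Lift` in a lifting context -/
theorem liftExports_of {L : Type*} [Field L] {A : ValuationSubring L} {F : Type*} [Field F]
    [Algebra L F] {G : Type*} [Group G] [HasPrincipalDivisors L F] {F₁ F₂ : Type*} [Field F₁]
    [Field F₂] [Algebra (IsLocalRing.ResidueField A) F₁] [Algebra (IsLocalRing.ResidueField A) F₂]
    [HasPrincipalDivisors (IsLocalRing.ResidueField A) F₁]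
    [HasPrincipalDivisors (IsLocalRing.ResidueField A) F₂]
    {D : NRedDatum A F F₁ F₂} {S : NSym D G} {g g₁ g₂ : ℕ} (C : NLiftCtx D S g g₁ g₂) :
    NB.LiftExports D S :=
  ⟨NB.exists_frame_avoiding C, NB.fixedLiftPlace C, fun hP hr => NB.exists_chart_at C hP hr⟩

/-- **NB, families** -/
theorem nFamOfCtx_holds : NFamOfCtx :=
  fun _ _ _ _ _ _ _ _ _ _ _ _ _ _ _ _ _ _ _ _ C => NB.nExistsFamStmt C

/-- **NB, configurations** -/
theorem nTriOfCtx_holds : NTriOfCtx :=
  fun _ _ _ _ _ _ _ _ _ _ _ _ _ _ _ _ _ _ _ _ C a b hab T =>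
    NB.exists_nTri_of C (liftExports_of C) a b hab T

/-- **`GeomPStmtDirect`** -/
theorem geomPStmtDirect_holds : GeomPStmtDirect :=
  geomPStmtDirect_of nFamOfCtx_holds nTriOfCtx_holds

end Fermat.Agent.S33lib.N

end
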